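import Fermat.Agent.Modular.Mero
import Fermat.Prelude.Def_ModularCurve_JqCoeff
import Fermat.Prelude.Def_ModularForm_HeckeOperator
import Fermat.Prelude.Thm_ModularCurve_coeffMap_qExpand

/-!
# The `j`-function

`jFun = E₄³/Δ` is analytic and `SL₂(ℤ)`-invariant with expansion `jq` (`hasQExp_jFun`), and
`jMulFun d`, `z ↦ j (d z)`, expands as `jq` in `q ^ d` (`hasQExp_jMulFun`).
-/

set_option autoImplicit false

noncomputable section

open UpperHalfPlane CongruenceSubgroup Filter Topology Function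
open scoped MatrixGroups ModularForm

namespace FLTAgent.Modular

variable {h : ℝ} {f g : ℍ → ℂ} {y y' : LaurentSeries ℂ}

/-- The modular invariant `j = E₄ ^ 3 / Δ`. -/
def jFun (z : ℍ) : ℂ := ModularForm.E₄ z ^ 3 * (ModularForm.discriminant z)⁻¹

/-- `HahnSeries.ofPowerSeries`, landing in `LaurentSeries ℂ`. -/
def psC : PowerSeries ℂ →+* LaurentSeries ℂ := HahnSeries.ofPowerSeries ℤ ℂ

/-- The monomial `q ^ m`. -/
def qMon (m : ℤ) : LaurentSeries ℂ := HahnSeries.single m (1 : ℂ)

theorem qMon_mul (m n : ℤ) : qMon m * qMon n = qMon (m + n) := by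
  simp [qMon, HahnSeries.single_mul_single]

theorem qMon_zero : qMon 0 = 1 := by simp [qMon]

theorem hasQExp_qMon (m : ℤ) : HasQExp h (fun z : ℍ => qPow h m z) (qMon m) := by
  simpa [qMon] using hasQExp_single h m 1

/-- A power series expansion as a Laurent series expansion. -/
theorem hasQExp_ofPowerSeries {P : PowerSeries ℂ}
    (hP : ∀ᶠ z : ℍ in atImInfty,
      HasSum (fun n : ℕ => PowerSeries.coeff n P * Periodic.qParam h z ^ n) (f z)) :
    HasQExp h f (psC P) := by
  rw [hasQExp_iff, psC]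
  filter_upwards [hP] with z hz
  refine (Nat.cast_injective.hasSum_iff fun k hk => ?_).1 ?_
  · rw [ModularCurve.ofPowerSeries_coeff_of_neg _
      (not_le.1 fun hk0 => hk ⟨k.toNat, Int.toNat_of_nonneg hk0⟩), zero_mul]
  · refine hz.congr_fun fun n => ?_
    simp [qPow_natCast]

section Eisenstein

open ArithmeticFunction in
theorem coeff_E₄ (n : ℕ) :
    (UpperHalfPlane.qExpansion 1 (ModularForm.E₄ : ℍ → ℂ)).coeff n =
      (((ModularCurve.eisenstein4.map (Int.castRingHom ℂ)).coeff n : ℂ)) := by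
  rw [ModularForm.E₄, EisensteinSeries.E_qExpansion_coeff (by norm_num) ⟨2, rfl⟩]
  rcases eq_or_ne n 0 with rfl | hn
  · simp [ModularCurve.eisenstein4]
  · have hb : (bernoulli 4 : ℚ) = -1 / 30 := by
      rw [bernoulli_eq_bernoulli'_of_ne_one (by norm_num), bernoulli'_four]
    rw [PowerSeries.coeff_map, ModularCurve.eisenstein4, PowerSeries.coeff_mk, if_neg hn, if_neg hn,
      hb, sigma_apply]
    push_cast
    norm_num

theorem hasQExp_E₄ : HasQExp 1 (ModularForm.E₄ : ℍ → ℂ)
    (psC (ModularCurve.eisenstein4.map (Int.castRingHom ℂ))) :=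
  hasQExp_ofPowerSeries <| Eventually.of_forall fun z => by
    refine (ModularForm.hasSum_qExpansion (f := ModularForm.E₄) (k := 4) one_pos
      one_mem_strictPeriods_SL z).congr_fun fun n => ?_
    rw [← coeff_E₄]

end Eisenstein

section etaProduct

/-- `q ↦ ∏ (1 - q ^ (n + 1))`. -/
def etaFun (q : ℂ) : ℂ := ∏' n : ℕ, (1 - q ^ (n + 1))

theorem analyticAt_etaFun : AnalyticAt ℂ etaFun 0 :=
  ModularForm.differentiableOn_tprod_one_sub_pow.analyticAt (Metric.ball_mem_nhds 0 one_pos)

/-- The finite sub-product. -/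
def etaPoly (R : Type*) [CommRing R] (s : Finset ℕ) : Polynomial R :=
  ∏ n ∈ s, (1 - Polynomial.X ^ (n + 1))

open scoped PowerSeries.WithPiTopology in
theorem eventually_coeff_etaPoly (m : ℕ) :
    ∀ᶠ s : Finset ℕ in atTop, (etaPoly ℤ s).coeff m = PowerSeries.coeff m ModularCurve.etaProd := by
  have h1 : HasProd (fun n : ℕ => (1 : PowerSeries ℤ) - PowerSeries.X ^ (n + 1))
      ModularCurve.etaProd :=
    (PowerSeries.WithPiTopology.multipliable_one_sub_X_pow ℤ).hasProd
  have h2 := ((PowerSeries.WithPiTopology.continuous_coeff ℤ m).tendsto _).comp h1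
  rw [nhds_discrete, tendsto_pure] at h2
  refine Eventually.mono h2 fun s hs => ?_
  rw [← hs, comp_apply, ← Polynomial.coeff_coe]
  congr 1
  rw [etaPoly, ← Polynomial.coeToPowerSeries.ringHom_apply, map_prod]
  simp

theorem etaPoly_map (s : Finset ℕ) :
    (etaPoly ℤ s).map (Int.castRingHom ℂ) = etaPoly ℂ s := by
  simp [etaPoly, Polynomial.map_prod]

theorem tendstoLocallyUniformlyOn_etaPoly (m : ℕ) :
    TendstoLocallyUniformlyOn
      (fun (s : Finset ℕ) (q : ℂ) => (Polynomial.derivative^[m] (etaPoly ℂ s)).eval q)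
      (deriv^[m] etaFun) atTop (Metric.ball 0 1) := by
  induction m with
  | zero =>
    refine (ModularForm.multipliableLocallyUniformlyOn_one_sub_pow.hasProdLocallyUniformlyOn).congr
      fun s q _ => ?_
    simp [etaPoly, Polynomial.eval_prod]
  | succ m ih =>
    rw [iterate_succ_apply']
    refine (ih.deriv (Eventually.of_forall fun s => (Polynomial.differentiable _).differentiableOn)
      Metric.isOpen_ball).congr fun s q _ => ?_
    rw [comp_apply, Polynomial.deriv, iterate_succ_apply']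

theorem iteratedDeriv_etaFun (m : ℕ) :
    iteratedDeriv m etaFun 0 =
      (m.factorial : ℂ) * (PowerSeries.coeff m ModularCurve.etaProd : ℤ) := by
  rw [iteratedDeriv_eq_iterate]
  refine tendsto_nhds_unique
    ((tendstoLocallyUniformlyOn_etaPoly m).tendsto_at (Metric.mem_ball_self one_pos)) ?_
  refine tendsto_const_nhds.congr' ((eventually_coeff_etaPoly m).mono fun s hs => ?_)
  beta_reduce
  rw [← Polynomial.coeff_zero_eq_eval_zero, Polynomial.coeff_iterate_derivative, zero_add,
    Nat.descFactorial_self, nsmul_eq_mul, ← etaPoly_map, Polynomial.coeff_map, hs]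
  simp

theorem hasQExp_etaFun : HasQExp 1 (fun z : ℍ => etaFun (Periodic.qParam 1 z))
    (psC (ModularCurve.etaProd.map (Int.castRingHom ℂ))) := by
  refine hasQExp_ofPowerSeries ?_
  filter_upwards [(tendsto_qParam_atImInfty one_pos).eventually
    (hasFPowerSeriesAt_iff.1 analyticAt_etaFun.hasFPowerSeriesAt)] with z hz
  rw [zero_add] at hz
  refine hz.congr_fun fun n => ?_
  rw [FormalMultilinearSeries.coeff_ofScalars, iteratedDeriv_etaFun, smul_eq_mul,
    PowerSeries.coeff_map]
  have : (n.factorial : ℂ) ≠ 0 := by exact_mod_cast n.factorial_ne_zero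
  field_simp
  simp [mul_comm]

theorem hasQExp_discriminant : HasQExp 1 ModularForm.discriminant
    (qMon 1 * psC (ModularCurve.dedekindEtaUnit.map (Int.castRingHom ℂ))) := by
  rw [ModularCurve.dedekindEtaUnit, map_pow, map_pow]
  refine ((hasQExp_qMon 1).mul (hasQExp_etaFun.pow 24)).congr (Eventually.of_forall fun z => ?_)
  rw [ModularForm.discriminant_eq_q_prod, Pi.mul_apply, Pi.pow_apply, qPow_one_eq_qParam, etaFun]
  congr 1
  exact ((ModularForm.multipliable_one_sub_pow
    (by simpa using norm_qParam_lt_one 1 z)).tprod_pow 24).symm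

end etaProduct

/-- The expansion of `j`, as the Laurent series `jq` with coefficients in `ℂ`. -/
theorem coeffEmb_jq :
    ModularCurve.coeffEmb ℂ ModularCurve.jq = ModularCurve.jqModC ℂ := by
  rw [← ModularCurve.jqModC_rat, ← ModularCurve.map_jqModC (algebraMap ℚ ℂ)]
  rfl

theorem jqModC_eq : ModularCurve.jqModC ℂ = qMon (-1) *
    (psC (ModularCurve.eisenstein4.map (Int.castRingHom ℂ)) ^ 3 *
      psC (ModularCurve.dedekindEtaUnitInv.map (Int.castRingHom ℂ))) := by
  rw [← map_pow psC, ← map_mul psC, ← map_pow (PowerSeries.map (Int.castRingHom ℂ)),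
    ← map_mul (PowerSeries.map (Int.castRingHom ℂ))]
  rfl

theorem discriminant_series_inv :
    (qMon 1 * psC (ModularCurve.dedekindEtaUnit.map (Int.castRingHom ℂ)))⁻¹ =
      qMon (-1) * psC (ModularCurve.dedekindEtaUnitInv.map (Int.castRingHom ℂ)) := by
  refine inv_eq_of_mul_eq_one_right ?_
  rw [mul_mul_mul_comm, qMon_mul, ← map_mul psC, ← map_mul (PowerSeries.map (Int.castRingHom ℂ)),
    ModularCurve.dedekindEtaUnit_mul_inv, map_one, map_one, add_neg_cancel, qMon_zero, one_mul]

theorem hasQExp_jFun : HasQExp 1 jFun (ModularCurve.coeffEmb ℂ ModularCurve.jq) := by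
  rw [coeffEmb_jq, jqModC_eq]
  have h1 := (hasQExp_E₄.pow 3).mul (hasQExp_discriminant.inv one_pos)
  rw [discriminant_series_inv, mul_left_comm] at h1
  exact h1.congr (Eventually.of_forall fun z => rfl)

theorem differentiableOn_jFun :
    DifferentiableOn ℂ (jFun ∘ ofComplex) upperHalfPlaneSet := by
  have h1 : DifferentiableOn ℂ ((ModularForm.E₄ : ℍ → ℂ) ∘ ofComplex) upperHalfPlaneSet :=
    UpperHalfPlane.mdifferentiable_iff.1 (ModularFormClass.holo ModularForm.E₄)
  have h2 : DifferentiableOn ℂ (ModularForm.discriminant ∘ ofComplex) upperHalfPlaneSet :=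
    UpperHalfPlane.mdifferentiable_iff.1 (CuspFormClass.holo CuspForm.discriminant)
  exact (h1.fun_pow 3).fun_mul (h2.fun_inv fun w _ => ModularForm.discriminant_ne_zero _)

theorem analyticAt_jFun (z : ℍ) : AnalyticAt ℂ (jFun ∘ ofComplex) (z : ℂ) :=
  differentiableOn_jFun.analyticAt (isOpen_upperHalfPlaneSet.mem_nhds z.im_pos)

theorem isMero_jFun : IsMero jFun := isMero_of_analyticAt analyticAt_jFun

theorem jFun_smul (γ : SL(2, ℤ)) (z : ℍ) : jFun (γ • z) = jFun z := by
  have hE := SlashInvariantForm.slash_action_eqn'' (Γ := 𝒮ℒ) (k := 4) ModularForm.E₄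
    (γ := (γ : GL (Fin 2) ℝ)) ⟨γ, rfl⟩ z
  have hD := SlashInvariantForm.slash_action_eqn'' (Γ := 𝒮ℒ) (k := 12) CuspForm.discriminant
    (γ := (γ : GL (Fin 2) ℝ)) ⟨γ, rfl⟩ z
  simp only [CuspForm.coe_discriminant] at hD
  rw [ModularGroup.sl_moeb]
  simp only [jFun, hE, hD]
  have h0 := UpperHalfPlane.denom_ne_zero γ z
  have hD0 := ModularForm.discriminant_ne_zero z
  field_simp

/-- `z ↦ j (d z)`. -/
def jMulFun (d : ℕ) (z : ℍ) : ℂ := jFun (ModularForm.heckeDiagMatrix d • z)

theorem jMulFun_one : jMulFun 1 = jFun := by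
  funext z
  rw [jMulFun]
  congr 1
  ext1
  rw [ModularForm.coe_heckeDiagMatrix_smul one_ne_zero]
  simp

theorem analyticAt_jMulFun (d : ℕ) (z : ℍ) : AnalyticAt ℂ (jMulFun d ∘ ofComplex) (z : ℂ) := by
  show AnalyticAt ℂ ((fun w : ℍ => jFun (ModularForm.heckeDiagMatrix d • w)) ∘ ofComplex) (z : ℂ)
  rw [comp_smul_ofComplex]
  refine AnalyticAt.comp ?_ (z.analyticAt_smul ?_)
  · exact analyticAt_jFun _
  · exact ModularForm.det_heckeDiagMatrix_pos d

theorem isMero_jMulFun (d : ℕ) : IsMero (jMulFun d) :=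
  isMero_of_analyticAt (analyticAt_jMulFun d)

theorem hasQExp_jMulFun (d : ℕ) [NeZero d] :
    HasQExp 1 (jMulFun d)
      (ModularCurve.coeffEmb ℂ (ModularCurve.qExpand ℚ d ModularCurve.jq)) := by
  rw [ModularCurve.coeffEmb, ModularCurve.coeffMap_qExpand]
  exact hasQExp_jFun.comp_mul d (φ := fun z => ModularForm.heckeDiagMatrix d • z)
    fun z => ModularForm.coe_heckeDiagMatrix_smul (NeZero.ne d) z

end FLTAgent.Modular
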