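import Fermat.Agent.Modular.Defs

/-!
# Calculus of `q`-expansions

`HasQExp h f y` says that `f` is given high up by the Laurent series `y` in `exp (2πi z/h)`.  It is
unique (`HasQExp.unique`) and stable under field operations, affine substitutions and passage to
`q ^ (1/N)`; `exists_hasQExp_of_analyticAt` and `HasQExp.exists_analyticAt` translate to analytic
functions of `q`.
-/

set_option autoImplicit false

noncomputable section

open UpperHalfPlane Filter Topology Function
open scoped MatrixGroups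

namespace FLTAgent.Modular

variable {h : ℝ} {f g : ℍ → ℂ} {y y' : LaurentSeries ℂ}

section qPow

theorem qPow_add (h : ℝ) (k l : ℤ) (z : ℍ) : qPow h (k + l) z = qPow h k z * qPow h l z := by
  rw [qPow, qPow, qPow, ← Complex.exp_add]
  push_cast
  ring_nf

theorem qPow_zero (h : ℝ) (z : ℍ) : qPow h 0 z = 1 := by simp [qPow]

theorem qPow_ne_zero (h : ℝ) (k : ℤ) (z : ℍ) : qPow h k z ≠ 0 := Complex.exp_ne_zero _

theorem qPow_one_eq_qParam (h : ℝ) (z : ℍ) : qPow h 1 z = Periodic.qParam h z := by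
  simp [qPow, Periodic.qParam]

theorem qPow_eq_zpow (h : ℝ) (k : ℤ) (z : ℍ) : qPow h k z = Periodic.qParam h z ^ k := by
  rw [qPow, Periodic.qParam, ← Complex.exp_int_mul]
  ring_nf

theorem qPow_natCast (h : ℝ) (n : ℕ) (z : ℍ) : qPow h n z = Periodic.qParam h z ^ n := by
  rw [qPow_eq_zpow, zpow_natCast]

theorem qPow_neg (h : ℝ) (k : ℤ) (z : ℍ) : qPow h (-k) z = (qPow h k z)⁻¹ := by
  rw [qPow_eq_zpow, qPow_eq_zpow, zpow_neg]

theorem qPow_mul_qPow_neg (h : ℝ) (k : ℤ) (z : ℍ) : qPow h k z * qPow h (-k) z = 1 := by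
  rw [← qPow_add, add_neg_cancel, qPow_zero]

theorem qPow_mul_period (h : ℝ) {N : ℕ} (hN : N ≠ 0) (k : ℤ) (z : ℍ) :
    qPow ((N : ℝ) * h) ((N : ℤ) * k) z = qPow h k z := by
  have : (N : ℂ) ≠ 0 := by exact_mod_cast hN
  simp only [qPow, Int.cast_mul, Int.cast_natCast, Complex.ofReal_mul, Complex.ofReal_natCast]
  congr 1
  rw [mul_comm (N : ℂ) (h : ℂ), show 2 * (Real.pi : ℂ) * Complex.I * ((N : ℂ) * k) * z
    = (2 * (Real.pi : ℂ) * Complex.I * k * z) * N by ring, mul_div_mul_right _ _ this]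

theorem norm_qPow (h : ℝ) (k : ℤ) (z : ℍ) :
    ‖qPow h k z‖ = Real.exp (-2 * Real.pi * z.im / h) ^ k := by
  rw [qPow_eq_zpow, norm_zpow, Periodic.norm_qParam]
  rfl

end qPow

section filters

theorem tendsto_qParam_atImInfty_ne (hh : 0 < h) :
    Tendsto (fun z : ℍ => Periodic.qParam h z) atImInfty (𝓝[≠] 0) :=
  (Periodic.qParam_tendsto hh).comp UpperHalfPlane.tendsto_coe_atImInfty

theorem tendsto_qParam_atImInfty (hh : 0 < h) :
    Tendsto (fun z : ℍ => Periodic.qParam h z) atImInfty (𝓝 0) :=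
  (tendsto_qParam_atImInfty_ne hh).mono_right nhdsWithin_le_nhds

/-- A property of `q` that holds for all `z` high up holds on a punctured neighbourhood of `0`. -/
theorem eventually_nhdsNE_of_qParam (hh : 0 < h) {P : ℂ → Prop}
    (hP : ∀ᶠ z : ℍ in atImInfty, P (Periodic.qParam h z)) : ∀ᶠ q in 𝓝[≠] (0 : ℂ), P q := by
  have ht := (UpperHalfPlane.tendsto_comap_im_ofComplex.comp (Periodic.invQParam_tendsto hh)).eventually hP
  have h1 : ∀ᶠ q in 𝓝[≠] (0 : ℂ), ‖q‖ < 1 :=
    eventually_nhdsWithin_of_eventually_nhds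
      (Metric.ball_mem_nhds (0 : ℂ) one_pos |> fun hb => by
        filter_upwards [hb] with q hq using by simpa using hq)
  filter_upwards [ht, h1, self_mem_nhdsWithin] with q hq hq1 hq0
  have him : 0 < Complex.im (Periodic.invQParam h q) :=
    Periodic.im_invQParam_pos_of_norm_lt_one hh hq1 hq0
  simpa [ofComplex_apply_of_im_pos him, Periodic.qParam_right_inv hh.ne' hq0] using hq

end filters

theorem hasQExp_iff : HasQExp h f y ↔
    ∀ᶠ z : ℍ in atImInfty, HasSum (fun k : ℤ => y.coeff k * qPow h k z) (f z) := by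
  constructor
  · rintro ⟨C, hC⟩
    rw [Filter.Eventually, atImInfty_mem]
    exact ⟨C + 1, fun z hz => hC z (by linarith)⟩
  · intro hf
    rw [Filter.Eventually, atImInfty_mem] at hf
    obtain ⟨A, hA⟩ := hf
    exact ⟨A, fun z hz => hA z hz.le⟩

theorem HasQExp.congr (hf : HasQExp h f y) (hfg : f =ᶠ[atImInfty] g) : HasQExp h g y := by
  rw [hasQExp_iff] at hf ⊢
  filter_upwards [hf, hfg] with z hz hfgz
  exact hfgz ▸ hz

theorem HasQExp.eventually_eq (hf : HasQExp h f y) (hg : HasQExp h g y) :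
    f =ᶠ[atImInfty] g := by
  rw [hasQExp_iff] at hf hg
  filter_upwards [hf, hg] with z hz hz'
  exact hz.unique hz'

theorem hasQExp_zero (h : ℝ) : HasQExp h (0 : ℍ → ℂ) 0 :=
  ⟨0, fun z _ => by simp⟩

theorem hasQExp_single (h : ℝ) (m : ℤ) (c : ℂ) :
    HasQExp h (fun z => c * qPow h m z) (HahnSeries.single m c) := by
  refine ⟨0, fun z _ => ?_⟩
  convert hasSum_ite_eq m (c * qPow h m z) using 1
  funext k
  rw [HahnSeries.coeff_single]
  split_ifs with hk
  · rw [hk]
  · simp

theorem hasQExp_const (h : ℝ) (c : ℂ) :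
    HasQExp h (fun _ => c) (algebraMap ℂ (LaurentSeries ℂ) c) := by
  simpa [ModularCurve.algebraMap_laurentSeries_eq_single, qPow_zero] using hasQExp_single h 0 c

theorem hasQExp_one (h : ℝ) : HasQExp h (1 : ℍ → ℂ) 1 := by
  have := hasQExp_const h 1
  rwa [map_one] at this

theorem HasQExp.add (hf : HasQExp h f y) (hg : HasQExp h g y') :
    HasQExp h (f + g) (y + y') := by
  rw [hasQExp_iff] at hf hg ⊢
  filter_upwards [hf, hg] with z hz hz'
  simpa [add_mul] using hz.add hz'

theorem HasQExp.neg (hf : HasQExp h f y) : HasQExp h (-f) (-y) := by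
  rw [hasQExp_iff] at hf ⊢
  filter_upwards [hf] with z hz
  simpa using hz.neg

theorem HasQExp.sub (hf : HasQExp h f y) (hg : HasQExp h g y') :
    HasQExp h (f - g) (y - y') := by
  simpa [sub_eq_add_neg] using hf.add hg.neg

theorem HasQExp.const_mul (hf : HasQExp h f y) (c : ℂ) :
    HasQExp h (fun z => c * f z) (c • y) := by
  rw [hasQExp_iff] at hf ⊢
  filter_upwards [hf] with z hz
  simpa [mul_assoc] using hz.mul_left c

theorem HasQExp.mul (hf : HasQExp h f y) (hg : HasQExp h g y') :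
    HasQExp h (f * g) (y * y') := by
  rw [hasQExp_iff] at hf hg ⊢
  filter_upwards [hf, hg] with z h1 h2
  let F : ℤ × ℤ → ℂ := fun p => (y.coeff p.1 * qPow h p.1 z) * (y'.coeff p.2 * qPow h p.2 z)
  have hs : Summable F :=
    summable_mul_of_summable_norm (f := fun k : ℤ => y.coeff k * qPow h k z)
      (g := fun k : ℤ => y'.coeff k * qPow h k z) h1.summable.norm h2.summable.norm
  have h3' := HasSum.mul (f := fun k : ℤ => y.coeff k * qPow h k z)
    (g := fun k : ℤ => y'.coeff k * qPow h k z) h1 h2 hs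
  have h3 : HasSum F (f z * g z) := h3'
  let e : (Σ n : ℤ, {p : ℤ × ℤ // p.1 + p.2 = n}) ≃ ℤ × ℤ :=
    Equiv.sigmaFiberEquiv fun p : ℤ × ℤ => p.1 + p.2
  have h4 : HasSum (F ∘ e) (f z * g z) := e.hasSum_iff.2 h3
  refine h4.sigma fun n => ?_
  set S := Finset.antidiagonal y.isPWO_support y'.isPWO_support n with hS
  have hmem : ∀ p ∈ S, p.1 + p.2 = n := fun p hp => (Finset.mem_antidiagonal.1 hp).2.2
  have heq : (∑ p ∈ S.subtype fun p => p.1 + p.2 = n, F p.1) = (y * y').coeff n * qPow h n z := by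
    rw [Finset.sum_subtype_of_mem F hmem, HahnSeries.coeff_mul, Finset.sum_mul]
    refine Finset.sum_congr rfl fun p hp => ?_
    rw [← hmem p hp, qPow_add]
    simp only [F]
    ring
  rw [← heq]
  refine hasSum_sum_of_ne_finset_zero fun p hp => ?_
  simp only [Finset.mem_subtype, hS] at hp
  change F p.1 = 0
  by_cases h1 : y.coeff p.1.1 = 0
  · simp [F, h1]
  · by_cases h2 : y'.coeff p.1.2 = 0
    · simp [F, h2]
    · exact absurd (Finset.mem_antidiagonal.2 ⟨h1, h2, p.2⟩) hp

theorem HasQExp.pow (hf : HasQExp h f y) (n : ℕ) : HasQExp h (f ^ n) (y ^ n) := by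
  induction n with
  | zero => simpa using hasQExp_one h
  | succ n ih => simpa [pow_succ] using ih.mul hf

theorem HasQExp.finsum {ι : Type*} (s : Finset ι) {F : ι → ℍ → ℂ} {Y : ι → LaurentSeries ℂ}
    (hF : ∀ i ∈ s, HasQExp h (F i) (Y i)) : HasQExp h (∑ i ∈ s, F i) (∑ i ∈ s, Y i) := by
  classical
  induction s using Finset.induction with
  | empty => simpa using hasQExp_zero h
  | insert i s hi ih =>
    rw [Finset.sum_insert hi, Finset.sum_insert hi]
    exact (hF i (by simp)).add (ih fun j hj => hF j (by simp [hj]))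

theorem HasQExp.finprod {ι : Type*} (s : Finset ι) {F : ι → ℍ → ℂ} {Y : ι → LaurentSeries ℂ}
    (hF : ∀ i ∈ s, HasQExp h (F i) (Y i)) : HasQExp h (∏ i ∈ s, F i) (∏ i ∈ s, Y i) := by
  classical
  induction s using Finset.induction with
  | empty => simpa using hasQExp_one h
  | insert i s hi ih =>
    rw [Finset.prod_insert hi, Finset.prod_insert hi]
    exact (hF i (by simp)).mul (ih fun j hj => hF j (by simp [hj]))

section analytic

open FormalMultilinearSeries in
/-- An expansion starting at `q ^ m` is `q ^ m` times an analytic function of `q`. -/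
theorem HasQExp.exists_analyticAt (hh : 0 < h) (hf : HasQExp h f y) {m : ℤ}
    (hm : ∀ k < m, y.coeff k = 0) :
    ∃ G : ℂ → ℂ, AnalyticAt ℂ G 0 ∧ G 0 = y.coeff m ∧
      (∀ᶠ z : ℍ in atImInfty, f z = qPow h m z * G (Periodic.qParam h z)) ∧
      HasFPowerSeriesAt G (ofScalars ℂ fun n : ℕ => y.coeff (m + n)) 0 := by
  set c : ℕ → ℂ := fun n => y.coeff (m + n) with hc
  rw [hasQExp_iff] at hf
  have hinj : Injective fun n : ℕ => m + (n : ℤ) := fun a b hab => by simpa using hab
  have hnat : ∀ᶠ z : ℍ in atImInfty,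
      HasSum (fun n : ℕ => c n * Periodic.qParam h z ^ n) (f z * qPow h (-m) z) := by
    filter_upwards [hf] with z hz
    have hvan : ∀ k ∉ Set.range (fun n : ℕ => m + (n : ℤ)), y.coeff k * qPow h k z = 0 := by
      intro k hk
      rw [hm k (not_le.1 fun hmk => hk ⟨(k - m).toNat, by simp [Int.toNat_of_nonneg (sub_nonneg.2 hmk)]⟩),
        zero_mul]
    have h2 := ((hinj.hasSum_iff hvan).2 hz).mul_right (qPow h (-m) z)
    have he : (fun n : ℕ => c n * Periodic.qParam h z ^ n) =
        fun n : ℕ => y.coeff (m + n) * qPow h (m + n) z * qPow h (-m) z := by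
      funext n
      rw [mul_assoc, ← qPow_add, show m + (n : ℤ) + -m = (n : ℤ) by ring, qPow_natCast]
    rw [he]
    exact h2
  obtain ⟨z₀, hz₀⟩ := hnat.exists
  have hrad : 0 < (ofScalars ℂ c).radius := by
    refine lt_of_lt_of_le ?_ ((ofScalars ℂ c).le_radius_of_summable
      (r := ‖Periodic.qParam h (z₀ : ℂ)‖₊) ?_)
    · simpa using Periodic.qParam_ne_zero (z₀ : ℂ)
    · refine hz₀.summable.norm.congr fun n => ?_
      simp [norm_pow]
  have hsum := ((ofScalars ℂ c).hasFPowerSeriesOnBall hrad).hasFPowerSeriesAt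
  refine ⟨(ofScalars ℂ c).sum, hsum.analyticAt, ?_, ?_, hsum⟩
  · rw [← hsum.coeff_zero 1]
    simp [hc]
  · filter_upwards [hnat] with z hz
    have hGz : (ofScalars ℂ c).sum (Periodic.qParam h z) = f z * qPow h (-m) z := by
      rw [show (ofScalars ℂ c).sum = ofScalarsSum c from rfl, ofScalarsSum_eq_tsum, ← hz.tsum_eq]
      simp
    rw [hGz, mul_left_comm, qPow_mul_qPow_neg, mul_one]

/-- A function given by `q ^ m * G(q)` with `G` analytic at `0` has a `q`-expansion. -/
theorem exists_hasQExp_of_analyticAt (hh : 0 < h) {G : ℂ → ℂ} (hG : AnalyticAt ℂ G 0) (m : ℤ)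
    (hf : ∀ᶠ z : ℍ in atImInfty, f z = qPow h m z * G (Periodic.qParam h z)) :
    ∃ y : LaurentSeries ℂ, HasQExp h f y ∧ (∀ k < m, y.coeff k = 0) ∧ y.coeff m = G 0 := by
  obtain ⟨p, hp⟩ := hG
  set u := HahnSeries.ofPowerSeries ℤ ℂ (PowerSeries.mk fun n => p.coeff n) with hu
  have hlow : ∀ k < m, (HahnSeries.single m (1 : ℂ) * u).coeff k = 0 := by
    intro k hk
    rw [HahnSeries.coeff_single_mul, one_mul, hu, ModularCurve.ofPowerSeries_coeff_of_neg _ (by omega)]
  have hnat : ∀ n : ℕ, (HahnSeries.single m (1 : ℂ) * u).coeff (m + n) = p.coeff n := by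
    intro n
    rw [HahnSeries.coeff_single_mul, one_mul, add_sub_cancel_left, hu,
      HahnSeries.ofPowerSeries_apply_coeff, PowerSeries.coeff_mk]
  refine ⟨HahnSeries.single m 1 * u, ?_, hlow, ?_⟩
  · rw [hasQExp_iff]
    filter_upwards [hf, (tendsto_qParam_atImInfty hh).eventually (hasFPowerSeriesAt_iff.1 hp)]
      with z hz hsum
    rw [zero_add] at hsum
    have hinj : Injective fun n : ℕ => m + (n : ℤ) := fun a b hab => by simpa using hab
    refine (hinj.hasSum_iff fun k hk => ?_).1 ?_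
    · rw [hlow k (not_le.1 fun hmk => hk ⟨(k - m).toNat, by simp [Int.toNat_of_nonneg (sub_nonneg.2 hmk)]⟩),
        zero_mul]
    · rw [hz]
      refine (hsum.mul_left (qPow h m z)).congr_fun fun n => ?_
      simp only [comp_apply, hnat, qPow_add, qPow_natCast, smul_eq_mul]
      ring
  · have h0 := hnat 0
    rw [Nat.cast_zero, add_zero] at h0
    rw [h0, ← hp.coeff_zero 1]
    rfl

theorem HasQExp.eq_zero (hh : 0 < h) (hf : HasQExp h (0 : ℍ → ℂ) y) : y = 0 := by
  by_contra hy
  obtain ⟨G, hG, hG0, hev, -⟩ :=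
    hf.exists_analyticAt hh (m := y.order) fun k hk => HahnSeries.coeff_eq_zero_of_lt_order hk
  have h0 : ∀ᶠ q in 𝓝[≠] (0 : ℂ), G q = 0 := eventually_nhdsNE_of_qParam hh <| by
    filter_upwards [hev] with z hz
    simpa [qPow_ne_zero] using hz.symm
  have hG00 : G 0 = 0 :=
    tendsto_nhds_unique (hG.continuousAt.tendsto.mono_left nhdsWithin_le_nhds)
      (tendsto_const_nhds.congr' (h0.mono fun q hq => hq.symm))
  rw [hG0] at hG00
  exact absurd (HahnSeries.coeff_order_eq_zero.1 hG00) hy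

theorem HasQExp.unique (hh : 0 < h) (hf : HasQExp h f y) (hf' : HasQExp h f y') : y = y' := by
  have h0 := hf.sub hf'
  rw [sub_self] at h0
  exact sub_eq_zero.1 (h0.eq_zero hh)

theorem HasQExp.eventually_ne_zero (hh : 0 < h) (hf : HasQExp h f y) (hy : y ≠ 0) :
    ∀ᶠ z : ℍ in atImInfty, f z ≠ 0 := by
  obtain ⟨G, hG, hG0, hev, -⟩ :=
    hf.exists_analyticAt hh (m := y.order) fun k hk => HahnSeries.coeff_eq_zero_of_lt_order hk
  have hne : G 0 ≠ 0 := by rw [hG0]; exact mt HahnSeries.coeff_order_eq_zero.1 hy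
  filter_upwards [hev, (tendsto_qParam_atImInfty hh).eventually
    (hG.continuousAt.eventually_ne hne)] with z hz hz'
  rw [hz]
  exact mul_ne_zero (qPow_ne_zero _ _ _) hz'

theorem HasQExp.inv (hh : 0 < h) (hf : HasQExp h f y) : HasQExp h f⁻¹ y⁻¹ := by
  by_cases hy : y = 0
  · subst hy
    rw [inv_zero]
    refine (hasQExp_zero h).congr ?_
    filter_upwards [hf.eventually_eq (hasQExp_zero h)] with z hz
    simp [hz]
  obtain ⟨G, hG, hG0, hev, -⟩ :=
    hf.exists_analyticAt hh (m := y.order) fun k hk => HahnSeries.coeff_eq_zero_of_lt_order hk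
  have hne : G 0 ≠ 0 := by rw [hG0]; exact mt HahnSeries.coeff_order_eq_zero.1 hy
  obtain ⟨y', hy', -, -⟩ := exists_hasQExp_of_analyticAt (f := f⁻¹) hh (hG.inv hne) (-y.order) <| by
    filter_upwards [hev] with z hz
    simp [hz, qPow_neg, mul_comm]
  have h1 : y * y' = 1 := by
    refine (hf.mul hy').unique hh ((hasQExp_one h).congr ?_)
    filter_upwards [hf.eventually_ne_zero hh hy] with z hz
    simp [mul_inv_cancel₀ hz]
  rwa [inv_eq_of_mul_eq_one_right h1]

theorem HasQExp.div (hh : 0 < h) (hf : HasQExp h f y) (hg : HasQExp h g y') :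
    HasQExp h (f / g) (y / y') := by
  rw [div_eq_mul_inv, div_eq_mul_inv]
  exact hf.mul (hg.inv hh)

/-- The leading term. -/
theorem HasQExp.tendsto_leading (hh : 0 < h) (hf : HasQExp h f y) {m : ℤ}
    (hm : ∀ k < m, y.coeff k = 0) :
    Tendsto (fun z : ℍ => f z * qPow h (-m) z) atImInfty (𝓝 (y.coeff m)) := by
  obtain ⟨G, hG, hG0, hev, -⟩ := hf.exists_analyticAt hh hm
  rw [← hG0]
  refine (hG.continuousAt.tendsto.comp (tendsto_qParam_atImInfty hh)).congr' ?_
  filter_upwards [hev] with z hz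
  rw [Function.comp_apply, hz, mul_right_comm, qPow_mul_qPow_neg, one_mul]

theorem HasQExp.exists_isBoundedAtImInfty (hh : 0 < h) (hf : HasQExp h f y) :
    ∃ n : ℕ, IsBoundedAtImInfty fun z : ℍ => qPow h n z * f z := by
  refine ⟨(-y.order).toNat, ?_⟩
  refine ((hf.tendsto_leading hh (m := -((-y.order).toNat : ℤ)) fun k hk =>
    HahnSeries.coeff_eq_zero_of_lt_order (by omega)).congr fun z => ?_).isBigO_one ℝ
  rw [neg_neg, mul_comm]

/-- Periodicity of a function having a `q`-expansion, high up. -/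
theorem HasQExp.eventually_periodic (hf : HasQExp h f y) (hh : h ≠ 0) :
    ∀ᶠ z : ℍ in atImInfty, f (h +ᵥ z) = f z := by
  obtain ⟨C, hC⟩ := hf
  rw [Filter.Eventually, atImInfty_mem]
  refine ⟨C + 1, fun z hz => ?_⟩
  have h1 := hC z (by linarith)
  have h2 := hC (h +ᵥ z) (by rw [vadd_im]; linarith)
  refine h2.unique ?_
  convert h1 using 1
  funext k
  congr 1
  have hh' : (h : ℂ) ≠ 0 := by exact_mod_cast hh
  rw [qPow, qPow, coe_vadd]
  conv_rhs => rw [← Complex.exp_periodic.int_mul k]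
  congr 1
  field_simp
  ring

theorem HasQExp.eventually_periodic_of_eq (hf : HasQExp h f y) (hh : 0 < h) :
    ∀ᶠ z : ℍ in atImInfty, f (h +ᵥ z) = f z := hf.eventually_periodic hh.ne'

end analytic

section change

/-- Rewriting an expansion in `q` as one in `q ^ (1 / N)`. -/
theorem HasQExp.qExpand (hf : HasQExp h f y) (N : ℕ) [NeZero N] :
    HasQExp ((N : ℝ) * h) f (ModularCurve.qExpand ℂ N y) := by
  rw [hasQExp_iff] at hf ⊢
  filter_upwards [hf] with z hz
  have hinj : Injective fun k : ℤ => (N : ℤ) * k :=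
    mul_right_injective₀ (by exact_mod_cast NeZero.ne N)
  refine (hinj.hasSum_iff fun k hk => ?_).1 ?_
  · rw [ModularCurve.qExpand_coeff_of_not_dvd N y, zero_mul]
    rintro ⟨m, rfl⟩
    exact hk ⟨m, rfl⟩
  · convert hz using 1
    funext k
    simp [qPow_mul_period h (NeZero.ne N)]

theorem tendsto_atImInfty_of_affine {a : ℝ} (ha : 0 < a) {b : ℝ} {φ : ℍ → ℍ}
    (hφ : ∀ z : ℍ, ((φ z : ℍ) : ℂ) = a * z + b) : Tendsto φ atImInfty atImInfty := by
  have him : ∀ z : ℍ, (φ z).im = a * z.im := fun z => by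
    have := congrArg Complex.im (hφ z)
    simpa using this
  rw [atImInfty, tendsto_comap_iff]
  exact ((tendsto_id.const_mul_atTop ha).comp tendsto_comap).congr fun z => (him z).symm

/-- The expansion of `z ↦ f (d z)`. -/
theorem HasQExp.comp_mul (hf : HasQExp h f y) (d : ℕ) [NeZero d] {φ : ℍ → ℍ}
    (hφ : ∀ z : ℍ, ((φ z : ℍ) : ℂ) = (d : ℂ) * z) :
    HasQExp h (fun z => f (φ z)) (ModularCurve.qExpand ℂ d y) := by
  rw [hasQExp_iff] at hf ⊢
  have ht : Tendsto φ atImInfty atImInfty :=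
    tendsto_atImInfty_of_affine (a := (d : ℝ)) (b := 0)
      (by exact_mod_cast Nat.pos_of_ne_zero (NeZero.ne d)) fun z => by simp [hφ]
  filter_upwards [ht.eventually hf] with z hz
  have hinj : Injective fun k : ℤ => (d : ℤ) * k :=
    mul_right_injective₀ (by exact_mod_cast NeZero.ne d)
  refine (hinj.hasSum_iff fun k hk => ?_).1 ?_
  · rw [ModularCurve.qExpand_coeff_of_not_dvd d y, zero_mul]
    rintro ⟨m, rfl⟩
    exact hk ⟨m, rfl⟩
  · convert hz using 1
    funext k
    simp only [comp_apply, ModularCurve.qExpand_coeff_mul, qPow, hφ, Int.cast_mul, Int.cast_natCast]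
    ring_nf

/-- Multiply the `k`-th coefficient by `u ^ k`. -/
def twistSeries (u : ℂˣ) : LaurentSeries ℂ →+* LaurentSeries ℂ where
  toFun y :=
    { coeff := fun k => ((u ^ k : ℂˣ) : ℂ) * y.coeff k
      isPWO_support' := y.isPWO_support.mono fun k hk hk0 => hk (by simp [hk0]) }
  map_zero' := by ext; simp
  map_one' := by
    ext k
    rcases eq_or_ne k 0 with rfl | hk
    · simp
    · simp [HahnSeries.coeff_one, hk]
  map_add' a b := by ext; simp [mul_add]
  map_mul' a b := by
    ext k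
    simp only [HahnSeries.coeff_mul]
    rw [Finset.mul_sum]
    refine Finset.sum_congr ?_ fun p hp => ?_
    · ext p
      simp [HahnSeries.mem_support, zpow_ne_zero]
    · rw [← (Finset.mem_antidiagonal.1 hp).2.2, zpow_add, Units.val_mul]
      ring

@[simp] theorem twistSeries_coeff (u : ℂˣ) (y : LaurentSeries ℂ) (k : ℤ) :
    (twistSeries u y).coeff k = ((u ^ k : ℂˣ) : ℂ) * y.coeff k := rfl

/-- The expansion of `z ↦ f ((a z + b) / d)` in powers of `exp (2 π i z / (d h))`. -/
theorem HasQExp.comp_affine (hf : HasQExp h f y) (hh : h ≠ 0) (a d : ℕ) [NeZero a] [NeZero d]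
    (b : ℤ) {φ : ℍ → ℍ} (hφ : ∀ z : ℍ, ((φ z : ℍ) : ℂ) = ((a : ℂ) * z + b) / d) :
    HasQExp ((d : ℝ) * h) (fun z => f (φ z))
      (ModularCurve.qExpand ℂ a (twistSeries
        (Units.mk0 (Complex.exp (2 * Real.pi * Complex.I * b / (d * h))) (Complex.exp_ne_zero _))
        y)) := by
  have hd : (d : ℝ) ≠ 0 := by exact_mod_cast NeZero.ne d
  have hdC : (d : ℂ) ≠ 0 := by exact_mod_cast NeZero.ne d
  have hhC : (h : ℂ) ≠ 0 := by exact_mod_cast hh
  rw [hasQExp_iff] at hf ⊢
  have ht : Tendsto φ atImInfty atImInfty := by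
    refine tendsto_atImInfty_of_affine (a := (a : ℝ) / d) (b := (b : ℝ) / d) ?_ fun z => ?_
    · exact div_pos (by exact_mod_cast Nat.pos_of_ne_zero (NeZero.ne a))
        (by exact_mod_cast Nat.pos_of_ne_zero (NeZero.ne d))
    · rw [hφ]; push_cast; field_simp
  filter_upwards [ht.eventually hf] with z hz
  have hinj : Injective fun k : ℤ => (a : ℤ) * k :=
    mul_right_injective₀ (by exact_mod_cast NeZero.ne a)
  refine (hinj.hasSum_iff fun k hk => ?_).1 ?_
  · rw [ModularCurve.qExpand_coeff_of_not_dvd a, zero_mul]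
    rintro ⟨m, rfl⟩
    exact hk ⟨m, rfl⟩
  · convert hz using 1
    funext k
    simp only [comp_apply, ModularCurve.qExpand_coeff_mul, qPow, hφ, twistSeries_coeff,
      Units.val_zpow_eq_zpow_val, Units.val_mk0, ← Complex.exp_int_mul, Int.cast_mul,
      Int.cast_natCast, Complex.ofReal_mul, Complex.ofReal_natCast]
    rw [mul_right_comm, ← Complex.exp_add, mul_comm]
    congr 2
    field_simp
    ring

end change

end FLTAgent.Modular
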