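import Fermat.Agent.Modular.Generation
import Fermat.Agent.ModularCosets.Degree
import Fermat.Agent.ModularPlaces.Fibres

/-!
# The function field `FC N` seen analytically

Summary of the main facts: `ev` identifies `FC N` with the modular functions (`ev_spec`,
`exists_eq_ev`, `ev_injective`), `[FC N : ℂ(j)] = ψ(N)` (`finrank_FC`), and the places are those of
points of `ℍ` (`placeOf`) and of cusps (`cuspPlace`), with their orders, equality criteria and
exhaustiveness (`place_exhaustive`).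
-/

set_option autoImplicit false

noncomputable section

open UpperHalfPlane CongruenceSubgroup Filter Topology AlgebraicCurve ModularCurve
open scoped MatrixGroups

namespace FLTAgent.Modular

variable {N : ℕ} [NeZero N]

/-- `ev y` is a modular function with expansion `y`. -/
theorem ev_spec (y : FC N) :
    IsModFun N (ev (y : LaurentSeries ℂ)) ∧ HasQExp 1 (ev (y : LaurentSeries ℂ)) y :=
  ⟨isModFun_ev y, hasQExp_ev y⟩

/-- Every modular function is `ev` of an element of `FC N`. -/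
theorem exists_eq_ev {f : ℍ → ℂ} (hf : IsModFun N f) :
    ∃ y : FC N, ev (y : LaurentSeries ℂ) = f := exists_eq_ev' hf

theorem ev_injective : Function.Injective fun y : FC N => ev (y : LaurentSeries ℂ) :=
  fun _ _ h => ev_inj h

theorem ev_eq_of_hasQExp {f : ℍ → ℂ} (hf : IsMero f) {y : LaurentSeries ℂ} (h : HasQExp 1 f y) :
    ev y = f := ev_eq_of_isMero hf h

theorem ordH_ev_mul {y y' : FC N} (hy : y ≠ 0) (hy' : y' ≠ 0) (z : ℍ) :
    ordH (ev ((y * y' : FC N) : LaurentSeries ℂ)) z =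
      ordH (ev (y : LaurentSeries ℂ)) z + ordH (ev (y' : LaurentSeries ℂ)) z := ordH_ev_mul' hy hy' z


/-- The degree of `FC N` over `ℂ(j)` is `ψ(N)`. -/
theorem finrank_FC :
    Module.finrank (IntermediateField.adjoin ℂ ({coeffEmb ℂ jq} : Set (LaurentSeries ℂ)))
      ↥(IntermediateField.extendScalars (F := IntermediateField.adjoin ℂ ({coeffEmb ℂ jq} : Set (LaurentSeries ℂ)))
        (E := FC N)
        (IntermediateField.adjoin_le_iff.mpr (Set.singleton_subset_iff.mpr
          (coeffEmb_mem_laurentBaseChange ℂ (modularFunctionField_le_full N (jq_mem N)))))) =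
      dedekindPsi N := ModularCosets.finrank_FC_eq N

/-- The place attached to a point of `ℍ`. -/
theorem exists_placeOf (z : ℍ) : ∃ v : Place ℂ (FC N), ∀ y : FC N, y ≠ 0 →
    (ellOrder N z : ℤ) * v.ord y = ordH (ev (y : LaurentSeries ℂ)) z :=
  ModularPlaces.exists_place_ellOrder z

/-- A chosen place of `FC N` attached to `z`. -/
def placeOf (z : ℍ) : Place ℂ (FC N) := (exists_placeOf z).choose

theorem ord_placeOf (z : ℍ) {y : FC N} (hy : y ≠ 0) :
    (ellOrder N z : ℤ) * (placeOf z).ord y = ordH (ev (y : LaurentSeries ℂ)) z :=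
  (exists_placeOf z).choose_spec y hy

/-- The place attached to the cusp `γ ∞`. -/
theorem exists_cuspPlace (γ : SL(2, ℤ)) : ∃ v : Place ℂ (FC N), ∀ y : FC N, y ≠ 0 →
    ∃ c : ℂ, c ≠ 0 ∧ Tendsto (fun z : ℍ => ev (y : LaurentSeries ℂ) (γ • z) *
      qPow (cuspWidth N γ : ℝ) (-(v.ord y)) z) atImInfty (𝓝 c) :=
  ModularPlaces.exists_place_cusp γ

/-- A chosen place of `FC N` attached to the cusp `γ ∞`. -/
def cuspPlace (γ : SL(2, ℤ)) : Place ℂ (FC N) := (exists_cuspPlace γ).choose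

theorem ord_cuspPlace (γ : SL(2, ℤ)) {y : FC N} (hy : y ≠ 0) :
    ∃ c : ℂ, c ≠ 0 ∧ Tendsto (fun z : ℍ => ev (y : LaurentSeries ℂ) (γ • z) *
      qPow (cuspWidth N γ : ℝ) (-((cuspPlace γ).ord y)) z) atImInfty (𝓝 c) :=
  (exists_cuspPlace γ).choose_spec y hy

theorem placeOf_eq_placeZ (z : ℍ) :
    (placeOf z : Place ℂ (FC N)) = ModularPlaces.placeZ z :=
  ModularPlaces.eq_placeZ fun _ hy => ord_placeOf z hy

theorem cuspPlace_eq_placeCusp (γ : SL(2, ℤ)) :
    (cuspPlace γ : Place ℂ (FC N)) = ModularPlaces.placeCusp γ :=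
  ModularPlaces.eq_placeCusp fun _ hy => ord_cuspPlace γ hy

theorem placeOf_eq_iff (z z' : ℍ) :
    (placeOf z : Place ℂ (FC N)) = placeOf z' ↔ ∃ γ : Gamma0 N, (γ : SL(2, ℤ)) • z = z' := by
  rw [placeOf_eq_placeZ, placeOf_eq_placeZ, ModularPlaces.placeZ_eq_iff]

theorem cuspPlace_eq_iff (γ γ' : SL(2, ℤ)) :
    (cuspPlace γ : Place ℂ (FC N)) = cuspPlace γ' ↔
      ∃ (g : Gamma0 N) (n : ℤ), (g : SL(2, ℤ)) * γ * ModularGroup.T ^ n = γ' ∨
        (g : SL(2, ℤ)) * γ * ModularGroup.T ^ n = -γ' := by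
  rw [cuspPlace_eq_placeCusp, cuspPlace_eq_placeCusp, ModularPlaces.placeCusp_eq_iff]

theorem placeOf_ne_cuspPlace (z : ℍ) (γ : SL(2, ℤ)) :
    (placeOf z : Place ℂ (FC N)) ≠ cuspPlace γ := by
  rw [placeOf_eq_placeZ, cuspPlace_eq_placeCusp]
  exact ModularPlaces.placeZ_ne_placeCusp z γ

/-- Every place of `FC N` belongs to a point of `ℍ` or to a cusp. -/
theorem place_exhaustive (v : Place ℂ (FC N)) :
    (∃ z : ℍ, v = placeOf z) ∨ ∃ γ : SL(2, ℤ), v = cuspPlace γ := by
  rcases ModularPlaces.placeZ_or_placeCusp v with ⟨z, hz⟩ | ⟨γ, hγ⟩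
  · exact Or.inl ⟨z, by rw [placeOf_eq_placeZ, hz]⟩
  · exact Or.inr ⟨γ, by rw [cuspPlace_eq_placeCusp, hγ]⟩

end FLTAgent.Modular
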