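import Fermat.Agent.Modular.JFun
import Fermat.Agent.ModularCosets.CosetIndex

/-!
# Modular functions of level `Γ₀(N)`

They have expansions at every cusp (`IsModFun.exists_hasQExp`) and include `j (d z)` for `d ∣ N`
(`isModFun_jMulFun`); their expansions form a field (`modFunSeries`) containing `FC N`, so `ev`
maps `FC N` injectively to modular functions (`isModFun_ev`, `ev_inj`) compatibly with the
operations.
-/

set_option autoImplicit false

noncomputable section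

open UpperHalfPlane CongruenceSubgroup Filter Topology Function
open scoped MatrixGroups

namespace FLTAgent.Modular

variable {N : ℕ} {f g : ℍ → ℂ}

theorem T_pow_conj_mem_Gamma0 (N : ℕ) (γ : SL(2, ℤ)) :
    γ * ModularGroup.T ^ (N : ℤ) * γ⁻¹ ∈ Gamma0 N := by
  have h1 : ModularGroup.T ^ (N : ℤ) ∈ Gamma N := by
    simpa using ModularGroup_T_pow_mem_Gamma (N : ℤ) N dvd_rfl
  have h2 := (Gamma_normal N).conj_mem _ h1 γ
  rw [Gamma_mem] at h2
  rw [Gamma0_mem]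
  exact h2.2.2.1

theorem smul_vadd_natCast_of_forall (hf : ∀ (γ : Gamma0 N) (z : ℍ), f ((γ : SL(2, ℤ)) • z) = f z)
    (γ : SL(2, ℤ)) (z : ℍ) : f (γ • ((N : ℝ) +ᵥ z)) = f (γ • z) := by
  have h := hf ⟨_, T_pow_conj_mem_Gamma0 N γ⟩ (γ • z)
  simp only [mul_smul, inv_smul_smul, modular_T_zpow_smul, Int.cast_natCast] at h
  exact h

theorem isMeroAtCusps_of_exists_hasQExp [NeZero N]
    (h : ∀ γ : SL(2, ℤ), ∃ y : LaurentSeries ℂ, HasQExp N (fun z => f (γ • z)) y) :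
    IsMeroAtCusps N f := fun γ => by
  obtain ⟨y, hy⟩ := h γ
  exact hy.exists_isBoundedAtImInfty (by exact_mod_cast Nat.pos_of_ne_zero (NeZero.ne N))

theorem IsMero.eventually_analyticAt_of_bounded (hf : IsMero f) {h : ℝ} {n : ℤ}
    (hbd : IsBoundedAtImInfty fun z : ℍ => qPow h n z * f z) :
    ∀ᶠ z : ℍ in atImInfty, AnalyticAt ℂ (f ∘ ofComplex) (z : ℂ) := by
  rw [UpperHalfPlane.isBoundedAtImInfty_iff] at hbd
  obtain ⟨M, A, hA⟩ := hbd
  rw [Filter.Eventually, atImInfty_mem]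
  refine ⟨A + 1, fun z hz => ?_⟩
  rw [Set.mem_ofPred_eq, ← (hf z).meromorphicOrderAt_nonneg_iff_analyticAt]
  by_contra hneg
  have hT := tendsto_cobounded_of_meromorphicOrderAt_neg (not_le.1 hneg)
  set φ : ℂ → ℂ := fun w => Periodic.qParam h w ^ n with hφdef
  have hφc : ContinuousAt φ (z : ℂ) :=
    (Periodic.continuous_qParam.continuousAt).zpow₀ n (Or.inl (Periodic.qParam_ne_zero _))
  have hφ0 : φ (z : ℂ) ≠ 0 := zpow_ne_zero _ (Periodic.qParam_ne_zero _)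
  have hbound : ∀ᶠ w in 𝓝[≠] (z : ℂ), ‖φ w‖ * ‖(f ∘ ofComplex) w‖ ≤ M := by
    refine eventually_nhdsWithin_of_eventually_nhds ?_
    filter_upwards [isOpen_upperHalfPlaneSet.mem_nhds z.im_pos,
      (isOpen_lt continuous_const Complex.continuous_im).mem_nhds
        (show A < (z : ℂ).im by rw [coe_im]; linarith)] with w hw hw'
    have := hA ⟨w, hw⟩ (le_of_lt hw')
    rw [norm_mul] at this
    simpa [φ, ofComplex_apply_of_im_pos hw, qPow_eq_zpow] using this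
  have hlarge := (tendsto_norm_cobounded_atTop.comp hT).eventually
    (eventually_gt_atTop (2 * M / ‖φ (z : ℂ)‖))
  have hhalf : ∀ᶠ w in 𝓝[≠] (z : ℂ), ‖φ (z : ℂ)‖ / 2 < ‖φ w‖ :=
    eventually_nhdsWithin_of_eventually_nhds
      (hφc.norm.eventually (lt_mem_nhds (half_lt_self (norm_pos_iff.2 hφ0))))
  obtain ⟨w, h1, h2, h3⟩ := (hbound.and (hlarge.and hhalf)).exists
  simp only [comp_apply] at h1 h2
  rw [div_lt_iff₀ (norm_pos_iff.2 hφ0)] at h2
  nlinarith [norm_nonneg (f (ofComplex w))]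

theorem IsModFun.exists_hasQExp [NeZero N] (hf : IsModFun N f) (γ : SL(2, ℤ)) :
    ∃ y : LaurentSeries ℂ, HasQExp N (fun z => f (γ • z)) y := by
  have hN : (0 : ℝ) < N := by exact_mod_cast Nat.pos_of_ne_zero (NeZero.ne N)
  obtain ⟨n, hn⟩ := hf.meroCusp γ
  obtain ⟨y, hy, -⟩ := exists_hasQExp_of_periodic (f := fun z => f (γ • z)) hN
    (smul_vadd_natCast_of_forall hf.smul γ)
    ((hf.mero.comp_sl γ).eventually_analyticAt_of_bounded hn) n hn
  exact ⟨y, hy⟩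

theorem IsModFun.smul' (hf : IsModFun N f) {γ : SL(2, ℤ)} (hγ : γ ∈ Gamma0 N) :
    (fun z => f (γ • z)) = f := funext (hf.smul ⟨γ, hγ⟩)

theorem IsModFun.of_nfH [NeZero N] (hraw : IsMeroRaw f)
    (hinv : ∀ (γ : Gamma0 N) (z : ℍ), f ((γ : SL(2, ℤ)) • z) = f z)
    (hexp : ∀ γ : SL(2, ℤ), ∃ y : LaurentSeries ℂ, HasQExp N (fun z => f (γ • z)) y) :
    IsModFun N (nfH f) := by
  have hcomm : ∀ γ : SL(2, ℤ), nfH (fun z => f (γ • z)) = fun z => nfH f (γ • z) :=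
    fun γ => nfH_comp_glSmul hraw (det_pos_SL γ)
  refine ⟨isMero_nfH hraw, isMeroAtCusps_of_exists_hasQExp fun γ => ?_, fun γ z => ?_⟩
  · obtain ⟨y, hy⟩ := hexp γ
    have := hy.nfH (by exact_mod_cast Nat.pos_of_ne_zero (NeZero.ne N))
    rw [hcomm γ] at this
    exact ⟨y, this⟩
  · have := congrFun (hcomm γ) z
    rw [show (fun z => f ((γ : SL(2, ℤ)) • z)) = f from funext (hinv γ)] at this
    exact this.symm

theorem isModFun_const [NeZero N] (c : ℂ) : IsModFun N fun _ => c :=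
  ⟨isMero_const c, isMeroAtCusps_of_exists_hasQExp fun _ => ⟨_, hasQExp_const _ c⟩,
    fun _ _ => rfl⟩

theorem IsModFun.nfH_add [NeZero N] (hf : IsModFun N f) (hg : IsModFun N g) :
    IsModFun N (nfH (f + g)) :=
  .of_nfH (hf.mero.raw.add hg.mero.raw) (fun γ z => by rw [Pi.add_apply, Pi.add_apply, hf.smul γ z, hg.smul γ z]) fun γ => by
    obtain ⟨y, hy⟩ := hf.exists_hasQExp γ
    obtain ⟨y', hy'⟩ := hg.exists_hasQExp γ
    exact ⟨y + y', hy.add hy'⟩

theorem IsModFun.nfH_mul [NeZero N] (hf : IsModFun N f) (hg : IsModFun N g) :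
    IsModFun N (nfH (f * g)) :=
  .of_nfH (hf.mero.raw.mul hg.mero.raw) (fun γ z => by rw [Pi.mul_apply, Pi.mul_apply, hf.smul γ z, hg.smul γ z]) fun γ => by
    obtain ⟨y, hy⟩ := hf.exists_hasQExp γ
    obtain ⟨y', hy'⟩ := hg.exists_hasQExp γ
    exact ⟨y * y', hy.mul hy'⟩

theorem IsModFun.inv [NeZero N] (hf : IsModFun N f) : IsModFun N f⁻¹ := by
  refine ⟨hf.mero.inv, isMeroAtCusps_of_exists_hasQExp fun γ => ?_, fun γ z => by rw [Pi.inv_apply, Pi.inv_apply, hf.smul γ z]⟩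
  obtain ⟨y, hy⟩ := hf.exists_hasQExp γ
  exact ⟨y⁻¹, hy.inv (by exact_mod_cast Nat.pos_of_ne_zero (NeZero.ne N))⟩

theorem IsModFun.neg [NeZero N] (hf : IsModFun N f) : IsModFun N (-f) := by
  refine ⟨fun z => ?_, isMeroAtCusps_of_exists_hasQExp fun γ => ?_, fun γ z => by rw [Pi.neg_apply, Pi.neg_apply, hf.smul γ z]⟩
  · have := (hf.mero z).smul_analytic (g := fun _ => (-1 : ℂ)) analyticAt_const (by norm_num)
    rwa [show ((fun _ => (-1 : ℂ)) • (f ∘ ofComplex)) = (-f) ∘ ofComplex by ext; simp] at this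
  · obtain ⟨y, hy⟩ := hf.exists_hasQExp γ
    exact ⟨-y, hy.neg⟩

/-- A function of lower level is one of higher level. -/
theorem IsModFun.mono {M : ℕ} [NeZero M] [NeZero N] (hf : IsModFun M f) (h : M ∣ N) :
    IsModFun N f := by
  obtain ⟨k, rfl⟩ := h
  have hk : k ≠ 0 := fun hk => NeZero.ne (M * k) (by simp [hk])
  have : NeZero k := ⟨hk⟩
  refine ⟨hf.mero, isMeroAtCusps_of_exists_hasQExp fun γ => ?_, fun γ z => ?_⟩
  · obtain ⟨y, hy⟩ := hf.exists_hasQExp γ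
    exact ⟨_, by simpa [Nat.cast_mul, mul_comm] using hy.qExpand k⟩
  · refine hf.smul ⟨γ, ?_⟩ z
    have := γ.2
    rw [Gamma0_mem, ZMod.intCast_zmod_eq_zero_iff_dvd] at this ⊢
    exact dvd_trans (by simp) this

section jMul

theorem heckeDiag_smul_mul (d : ℕ) [NeZero d] (γ γ' : SL(2, ℤ)) (z : ℍ)
    (h : ModularCosets.diagOne d * (γ : Matrix (Fin 2) (Fin 2) ℤ)
      = (γ' : Matrix (Fin 2) (Fin 2) ℤ) * ModularCosets.diagOne d) :
    ModularForm.heckeDiagMatrix d • (γ • z) = γ' • (ModularForm.heckeDiagMatrix d • z) := by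
  rw [ModularGroup.sl_moeb, ModularGroup.sl_moeb, ← mul_smul, ← mul_smul]
  congr 1
  ext i j
  have := congrArg (fun M : Matrix (Fin 2) (Fin 2) ℤ => ((M i j : ℤ) : ℝ)) h
  fin_cases i <;> fin_cases j <;>
    simpa [ModularCosets.diagOne, Matrix.mul_apply, Fin.sum_univ_two,
      ModularForm.val_heckeDiagMatrix (NeZero.ne d)] using this

/-- Decomposition of `d γ z` as `g • ((a z + b) / D)`. -/
theorem exists_heckeDiag_smul_eq (d : ℕ) [NeZero d] (γ : SL(2, ℤ)) :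
    ∃ (g : SL(2, ℤ)) (a b D : ℕ), a * D = d ∧ b < D ∧ ∀ z : ℍ, ∃ w : ℍ,
      (w : ℂ) = ((a : ℂ) * z + b) / D ∧ ModularForm.heckeDiagMatrix d • (γ • z) = g • w := by
  obtain ⟨g, a, b, D, haD, hbD, hM⟩ :=
    ModularCosets.exists_hnf (ModularCosets.diagOne d * (γ : Matrix (Fin 2) (Fin 2) ℤ)) d
      (NeZero.ne d) (by simp [ModularCosets.det_diagOne])
  refine ⟨g, a, b, D, haD, hbD, fun z => ?_⟩
  have had : (a : ℝ) * D ≠ 0 := by
    rw [← Nat.cast_mul, haD]; exact_mod_cast NeZero.ne d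
  refine ⟨ModularForm.upperTriangularGL a b D had • z, ?_, ?_⟩
  · rw [coe_smul_of_det_pos]
    · simp [num, denom]
    · rw [Matrix.GeneralLinearGroup.val_det_apply, ModularForm.val_upperTriangularGL,
        Matrix.det_fin_two_of]
      simp only [mul_zero, sub_zero, ← Nat.cast_mul, haD, Nat.cast_pos]
      exact Nat.pos_of_ne_zero (NeZero.ne d)
  · rw [ModularGroup.sl_moeb, ModularGroup.sl_moeb, ← mul_smul, ← mul_smul]
    congr 1
    ext i j
    have := congrArg (fun M : Matrix (Fin 2) (Fin 2) ℤ => ((M i j : ℤ) : ℝ)) hM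
    fin_cases i <;> fin_cases j <;>
      simpa [ModularCosets.diagOne, ModularCosets.upperTri, Matrix.mul_apply, Fin.sum_univ_two,
        ModularForm.val_heckeDiagMatrix (NeZero.ne d)] using this

theorem exists_jMulFun_smul_eq (d : ℕ) [NeZero d] (γ : SL(2, ℤ)) :
    ∃ a b D : ℕ, a * D = d ∧ b < D ∧ ∀ z : ℍ, ∃ w : ℍ,
      (w : ℂ) = ((a : ℂ) * z + b) / D ∧ jMulFun d (γ • z) = jFun w := by
  obtain ⟨g, a, b, D, haD, hbD, h⟩ := exists_heckeDiag_smul_eq d γ
  refine ⟨a, b, D, haD, hbD, fun z => ?_⟩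
  obtain ⟨w, hw, he⟩ := h z
  exact ⟨w, hw, by rw [jMulFun, he, jFun_smul]⟩

theorem isModFun_jMulFun [NeZero N] {d : ℕ} [NeZero d] (hd : d ∣ N) : IsModFun N (jMulFun d) := by
  have h1 : IsModFun d (jMulFun d) := by
    refine ⟨isMero_jMulFun d, isMeroAtCusps_of_exists_hasQExp fun γ => ?_, fun γ z => ?_⟩
    · obtain ⟨a, b, D, haD, hbD, h⟩ := exists_jMulFun_smul_eq d γ
      have : NeZero a := ⟨fun ha => NeZero.ne d (by simp [← haD, ha])⟩
      have : NeZero D := ⟨by omega⟩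
      choose φ hφ hj using h
      have := ((hasQExp_jFun.comp_affine one_ne_zero a D (b : ℤ) (φ := φ)
        fun z => by simpa using hφ z).qExpand a)
      rw [show (a : ℝ) * ((D : ℝ) * 1) = d by rw [mul_one, ← Nat.cast_mul, haD]] at this
      exact ⟨_, this.congr (Eventually.of_forall fun z => (hj z).symm)⟩
    · have hmem := γ.2
      rw [Gamma0_mem, ZMod.intCast_zmod_eq_zero_iff_dvd] at hmem
      obtain ⟨c, hc⟩ := hmem
      have hdet := (γ : SL(2, ℤ)).2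
      rw [Matrix.det_fin_two] at hdet
      rw [jMulFun, jMulFun, heckeDiag_smul_mul d γ
        ⟨!![(γ : SL(2, ℤ)) 0 0, d * (γ : SL(2, ℤ)) 0 1; c, (γ : SL(2, ℤ)) 1 1], by
          rw [Matrix.det_fin_two_of]
          linear_combination hdet + ((γ : SL(2, ℤ)) 0 1) * hc⟩ z ?_]
      · exact jFun_smul _ _
      ext i j
      fin_cases i <;> fin_cases j <;>
        simp [ModularCosets.diagOne, Matrix.mul_apply, Fin.sum_univ_two, hc, mul_comm]
  exact h1.mono hd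

theorem isModFun_jFun [NeZero N] : IsModFun N jFun :=
  jMulFun_one ▸ isModFun_jMulFun (one_dvd N)

end jMul

section ev

/-- The Laurent series which are expansions of modular functions. -/
def modFunSeries (N : ℕ) [NeZero N] : IntermediateField ℂ (LaurentSeries ℂ) where
  carrier := {y | ∃ f : ℍ → ℂ, IsModFun N f ∧ HasQExp 1 f y}
  one_mem' := ⟨fun _ => 1, isModFun_const 1, hasQExp_one 1⟩
  zero_mem' := ⟨fun _ => 0, isModFun_const 0, hasQExp_zero 1⟩
  mul_mem' := by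
    rintro a b ⟨f, hf, hfa⟩ ⟨g, hg, hgb⟩
    exact ⟨_, hf.nfH_mul hg, (hfa.mul hgb).nfH one_pos⟩
  add_mem' := by
    rintro a b ⟨f, hf, hfa⟩ ⟨g, hg, hgb⟩
    exact ⟨_, hf.nfH_add hg, (hfa.add hgb).nfH one_pos⟩
  algebraMap_mem' := fun c => ⟨_, isModFun_const c, hasQExp_const 1 c⟩
  inv_mem' := by
    rintro a ⟨f, hf, hfa⟩
    exact ⟨_, hf.inv, hfa.inv one_pos⟩

theorem FC_le_modFunSeries [NeZero N] : FC N ≤ modFunSeries N := by
  rw [FC, ModularCurve.laurentBaseChange, IntermediateField.adjoin_le_iff]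
  rintro _ ⟨x, hx, rfl⟩
  rw [SetLike.mem_coe, ModularCurve.modularFunctionFieldFull] at hx
  induction hx using IntermediateField.adjoin_induction with
  | mem x hx =>
    obtain ⟨d, hd, hdN, rfl⟩ := hx
    exact ⟨_, isModFun_jMulFun hdN, hasQExp_jMulFun d⟩
  | algebraMap q => simp
  | add a b _ _ ha hb => rw [map_add]; exact add_mem ha hb
  | inv a _ ha => rw [map_inv₀]; exact inv_mem ha
  | mul a b _ _ ha hb => rw [map_mul]; exact mul_mem ha hb

variable [NeZero N]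

theorem ev_spec' {y : LaurentSeries ℂ} (hy : y ∈ FC N) :
    IsModFun N (ev y) ∧ HasQExp 1 (ev y) y := by
  obtain ⟨f, hf, hfy⟩ := FC_le_modFunSeries hy
  rw [ev_eq_of_isMero hf.mero hfy]
  exact ⟨hf, hfy⟩

theorem isModFun_ev (y : FC N) : IsModFun N (ev (y : LaurentSeries ℂ)) := (ev_spec' y.2).1

theorem hasQExp_ev (y : FC N) : HasQExp 1 (ev (y : LaurentSeries ℂ)) y := (ev_spec' y.2).2

theorem isMero_ev (y : FC N) : IsMero (ev (y : LaurentSeries ℂ)) := (isModFun_ev y).mero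

theorem ev_inj {y y' : FC N} (h : ev (y : LaurentSeries ℂ) = ev (y' : LaurentSeries ℂ)) :
    y = y' :=
  Subtype.ext ((hasQExp_ev y).unique one_pos (h ▸ hasQExp_ev y'))

theorem ev_add (y y' : FC N) : ev ((y + y' : FC N) : LaurentSeries ℂ) =
    nfH (ev (y : LaurentSeries ℂ) + ev (y' : LaurentSeries ℂ)) :=
  ev_eq_of_isMero (isMero_nfH ((isMero_ev y).raw.add (isMero_ev y').raw))
    (((hasQExp_ev y).add (hasQExp_ev y')).nfH one_pos)

theorem ev_mul (y y' : FC N) : ev ((y * y' : FC N) : LaurentSeries ℂ) =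
    nfH (ev (y : LaurentSeries ℂ) * ev (y' : LaurentSeries ℂ)) :=
  ev_eq_of_isMero (isMero_nfH ((isMero_ev y).raw.mul (isMero_ev y').raw))
    (((hasQExp_ev y).mul (hasQExp_ev y')).nfH one_pos)

theorem ev_neg (y : FC N) :
    ev ((-y : FC N) : LaurentSeries ℂ) = -ev (y : LaurentSeries ℂ) :=
  ev_eq_of_isMero (isModFun_ev y).neg.mero (hasQExp_ev y).neg

theorem ev_inv (y : FC N) :
    ev ((y⁻¹ : FC N) : LaurentSeries ℂ) = (ev (y : LaurentSeries ℂ))⁻¹ :=
  ev_eq_of_isMero (isMero_ev y).inv ((hasQExp_ev y).inv one_pos)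

omit [NeZero N] in
theorem ev_algebraMap_apply (c : ℂ) :
    ev ((algebraMap ℂ (FC N) c : FC N) : LaurentSeries ℂ) = fun _ => c :=
  ev_eq_of_isMero (isMero_const c) (hasQExp_const 1 c)

theorem ev_zero' : ev (0 : LaurentSeries ℂ) = fun _ => 0 :=
  ev_eq_of_isMero (isMero_const 0) (hasQExp_zero 1)

theorem ev_one' : ev (1 : LaurentSeries ℂ) = fun _ => 1 :=
  ev_eq_of_isMero (isMero_const 1) (hasQExp_one 1)

omit [NeZero N] in
theorem ev_jq : ev (ModularCurve.coeffEmb ℂ ModularCurve.jq) = jFun :=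
  ev_eq_of_isMero isMero_jFun hasQExp_jFun

omit [NeZero N] in
theorem ev_jq_qExpand (d : ℕ) [NeZero d] :
    ev (ModularCurve.coeffEmb ℂ (ModularCurve.qExpand ℚ d ModularCurve.jq)) = jMulFun d :=
  ev_eq_of_isMero (isMero_jMulFun d) (hasQExp_jMulFun d)

theorem ev_add_eventuallyEq (y y' : FC N) (z : ℍ) :
    ev ((y + y' : FC N) : LaurentSeries ℂ) ∘ ofComplex =ᶠ[𝓝[≠] (z : ℂ)]
      (ev (y : LaurentSeries ℂ) + ev (y' : LaurentSeries ℂ)) ∘ ofComplex := by
  rw [ev_add]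
  exact nfH_eventuallyEq ((isMero_ev y).raw.add (isMero_ev y').raw) z

theorem ev_mul_eventuallyEq (y y' : FC N) (z : ℍ) :
    ev ((y * y' : FC N) : LaurentSeries ℂ) ∘ ofComplex =ᶠ[𝓝[≠] (z : ℂ)]
      (ev (y : LaurentSeries ℂ) * ev (y' : LaurentSeries ℂ)) ∘ ofComplex := by
  rw [ev_mul]
  exact nfH_eventuallyEq ((isMero_ev y).raw.mul (isMero_ev y').raw) z

theorem meromorphicOrderAt_ev_ne_top {y : FC N} (hy : y ≠ 0) (z : ℍ) :
    meromorphicOrderAt (ev (y : LaurentSeries ℂ) ∘ ofComplex) (z : ℂ) ≠ ⊤ :=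
  (hasQExp_ev y).order_ne_top one_pos (isMero_ev y).raw (fun h => hy (Subtype.ext h)) z

theorem meromorphicOrderAt_ev_mul (y y' : FC N) (z : ℍ) :
    meromorphicOrderAt (ev ((y * y' : FC N) : LaurentSeries ℂ) ∘ ofComplex) (z : ℂ) =
      meromorphicOrderAt (ev (y : LaurentSeries ℂ) ∘ ofComplex) (z : ℂ) +
        meromorphicOrderAt (ev (y' : LaurentSeries ℂ) ∘ ofComplex) (z : ℂ) := by
  rw [ev_mul, meromorphicOrderAt_nfH ((isMero_ev y).raw.mul (isMero_ev y').raw)]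
  exact meromorphicOrderAt_mul ((isMero_ev y).meromorphicAt z) ((isMero_ev y').meromorphicAt z)

theorem ordH_ev_mul' {y y' : FC N} (hy : y ≠ 0) (hy' : y' ≠ 0) (z : ℍ) :
    ordH (ev ((y * y' : FC N) : LaurentSeries ℂ)) z =
      ordH (ev (y : LaurentSeries ℂ)) z + ordH (ev (y' : LaurentSeries ℂ)) z := by
  rw [ordH, ordH, ordH, meromorphicOrderAt_ev_mul,
    WithTop.untop₀_add (meromorphicOrderAt_ev_ne_top hy z) (meromorphicOrderAt_ev_ne_top hy' z)]

theorem ev_mul_apply (y y' : FC N) {z : ℍ}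
    (hy : AnalyticAt ℂ (ev (y : LaurentSeries ℂ) ∘ ofComplex) (z : ℂ))
    (hy' : AnalyticAt ℂ (ev (y' : LaurentSeries ℂ) ∘ ofComplex) (z : ℂ)) :
    ev ((y * y' : FC N) : LaurentSeries ℂ) z =
      ev (y : LaurentSeries ℂ) z * ev (y' : LaurentSeries ℂ) z := by
  rw [ev_mul, nfH_apply_of_analyticAt, Pi.mul_apply]
  exact hy.mul hy'

theorem ev_add_apply (y y' : FC N) {z : ℍ}
    (hy : AnalyticAt ℂ (ev (y : LaurentSeries ℂ) ∘ ofComplex) (z : ℂ))
    (hy' : AnalyticAt ℂ (ev (y' : LaurentSeries ℂ) ∘ ofComplex) (z : ℂ)) :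
    ev ((y + y' : FC N) : LaurentSeries ℂ) z =
      ev (y : LaurentSeries ℂ) z + ev (y' : LaurentSeries ℂ) z := by
  rw [ev_add, nfH_apply_of_analyticAt, Pi.add_apply]
  exact hy.add hy'

end ev

end FLTAgent.Modular
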