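import Mathlib
import Fermat.Prelude.Def_ModularCurve_ArithmeticGalois

/-!
# Definitions for the analytic function field of `X₀(N)`

`FC N` is the function field over `ℂ` inside `ℂ((q))`; `IsMero`, `ordH`, `qPow`, `HasQExp`,
`IsMeroAtCusps` and `IsModFun` describe modular functions on `ℍ` and their expansions, `ev` sends
a Laurent series to the function it expands, and `ellOrder`, `cuspWidth` are the local
indices.  Only definitions live here.
-/

set_option autoImplicit false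

noncomputable section

open UpperHalfPlane CongruenceSubgroup Filter Topology
open scoped MatrixGroups

namespace FLTAgent.Modular

/-- The function field of `X₀(N)` over `ℂ`, inside `ℂ((q))`. -/
abbrev FC (N : ℕ) : IntermediateField ℂ (LaurentSeries ℂ) :=
  ModularCurve.laurentBaseChange ℂ (ModularCurve.modularFunctionFieldFull N)

/-- Meromorphic in normal form on the upper half plane. -/
def IsMero (f : ℍ → ℂ) : Prop :=
  ∀ z : ℍ, MeromorphicNFAt (f ∘ ofComplex) (z : ℂ)

/-- Order of vanishing at a point of `ℍ`. -/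
def ordH (f : ℍ → ℂ) (z : ℍ) : ℤ :=
  (meromorphicOrderAt (f ∘ ofComplex) (z : ℂ)).untop₀

/-- `exp (2πi k z / h)`. -/
def qPow (h : ℝ) (k : ℤ) (z : ℍ) : ℂ :=
  Complex.exp (2 * Real.pi * Complex.I * (k : ℂ) * (z : ℂ) / (h : ℂ))

/-- `f` is given near `i∞` by the Laurent series `y` in `exp (2πi z / h)`. -/
def HasQExp (h : ℝ) (f : ℍ → ℂ) (y : LaurentSeries ℂ) : Prop :=
  ∃ C : ℝ, ∀ z : ℍ, C < z.im → HasSum (fun k : ℤ => y.coeff k * qPow h k z) (f z)

/-- Finite order pole at most at every cusp. -/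
def IsMeroAtCusps (N : ℕ) (f : ℍ → ℂ) : Prop :=
  ∀ γ : SL(2, ℤ), ∃ n : ℕ, IsBoundedAtImInfty fun z : ℍ => qPow (N : ℝ) n z * f (γ • z)

/-- `f` transforms under `Γ₀(N)` by the multiplier `c`, is meromorphic everywhere
(cusps included) and is not the zero function. -/
structure IsMult (N : ℕ) (f : ℍ → ℂ) (c : Gamma0 N →* ℂˣ) : Prop where
  mero : IsMero f
  meroCusp : IsMeroAtCusps N f
  nonzero : ∃ z : ℍ, meromorphicOrderAt (f ∘ ofComplex) (z : ℂ) ≠ ⊤
  smul : ∀ (γ : Gamma0 N) (z : ℍ), f ((γ : SL(2, ℤ)) • z) = (c γ : ℂ) * f z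

/-- A modular function of level `Γ₀(N)` (the zero function included). -/
structure IsModFun (N : ℕ) (f : ℍ → ℂ) : Prop where
  mero : IsMero f
  meroCusp : IsMeroAtCusps N f
  smul : ∀ (γ : Gamma0 N) (z : ℍ), f ((γ : SL(2, ℤ)) • z) = f z

open Classical in
/-- The meromorphic function on `ℍ` with the given `q`-expansion (junk `0` if there is none). -/
def ev (y : LaurentSeries ℂ) : ℍ → ℂ :=
  if h : ∃ f : ℍ → ℂ, IsMero f ∧ HasQExp 1 f y then h.choose else 0

/-- Order of the stabiliser of `z` in `Γ₀(N) / ±1`. -/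
def ellOrder (N : ℕ) (z : ℍ) : ℕ :=
  Nat.card {γ : Gamma0 N // (γ : SL(2, ℤ)) • z = z} / 2

/-- The width of the cusp `γ ∞` of `Γ₀(N)`. -/
def cuspWidth (N : ℕ) (γ : SL(2, ℤ)) : ℕ :=
  sInf {w : ℕ | 0 < w ∧ (γ * ModularGroup.T ^ (w : ℤ) * γ⁻¹) ∈ Gamma0 N}

end FLTAgent.Modular
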