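import Fermat.Agent.Modular.QExp

/-!
# Meromorphic functions on the upper half plane

Normal forms (`nfH`), the identity theorem from a point or from `i∞` (`IsMero.eq_of_hasQExp`,
whence `ev_eq_of_isMero`), composition with Möbius maps, and `exists_hasQExp_of_periodic`: a
periodic function analytic and of finite order high up has a `q`-expansion.
-/

set_option autoImplicit false

noncomputable section

open UpperHalfPlane Filter Topology Function
open scoped MatrixGroups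

namespace FLTAgent.Modular

variable {h : ℝ} {f g : ℍ → ℂ} {y y' : LaurentSeries ℂ}

/-- Meromorphic on the upper half plane, no normalisation of values. -/
abbrev IsMeroRaw (f : ℍ → ℂ) : Prop := MeromorphicOn (f ∘ ofComplex) upperHalfPlaneSet

theorem IsMero.meromorphicAt (hf : IsMero f) (z : ℍ) : MeromorphicAt (f ∘ ofComplex) (z : ℂ) :=
  (hf z).meromorphicAt

theorem IsMero.raw (hf : IsMero f) : IsMeroRaw f := fun x hx => hf.meromorphicAt ⟨x, hx⟩

theorem isMero_of_analyticAt (hf : ∀ z : ℍ, AnalyticAt ℂ (f ∘ ofComplex) (z : ℂ)) : IsMero f :=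
  fun z => (hf z).meromorphicNFAt

theorem isMero_const (c : ℂ) : IsMero fun _ => c :=
  isMero_of_analyticAt fun _ => analyticAt_const

theorem isMero_zero : IsMero (0 : ℍ → ℂ) := isMero_const 0

theorem isMero_one : IsMero (1 : ℍ → ℂ) := isMero_const 1

theorem IsMero.inv (hf : IsMero f) : IsMero f⁻¹ := fun z => (hf z).inv

theorem IsMeroRaw.add (hf : IsMeroRaw f) (hg : IsMeroRaw g) : IsMeroRaw (f + g) :=
  MeromorphicOn.add hf hg

theorem IsMeroRaw.sub (hf : IsMeroRaw f) (hg : IsMeroRaw g) : IsMeroRaw (f - g) :=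
  MeromorphicOn.sub hf hg

theorem IsMeroRaw.neg (hf : IsMeroRaw f) : IsMeroRaw (-f) := MeromorphicOn.neg hf

theorem IsMeroRaw.mul (hf : IsMeroRaw f) (hg : IsMeroRaw g) : IsMeroRaw (f * g) :=
  MeromorphicOn.mul hf hg

theorem IsMeroRaw.finsum {ι : Type*} (s : Finset ι) {F : ι → ℍ → ℂ}
    (hF : ∀ i ∈ s, IsMeroRaw (F i)) : IsMeroRaw (∑ i ∈ s, F i) := by
  classical
  induction s using Finset.induction with
  | empty => exact isMero_zero.raw
  | insert i s hi ih =>
    rw [Finset.sum_insert hi]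
    exact (hF i (by simp)).add (ih fun j hj => hF j (by simp [hj]))

theorem IsMeroRaw.finprod {ι : Type*} (s : Finset ι) {F : ι → ℍ → ℂ}
    (hF : ∀ i ∈ s, IsMeroRaw (F i)) : IsMeroRaw (∏ i ∈ s, F i) := by
  classical
  induction s using Finset.induction with
  | empty => exact isMero_one.raw
  | insert i s hi ih =>
    rw [Finset.prod_insert hi]
    exact (hF i (by simp)).mul (ih fun j hj => hF j (by simp [hj]))

section nfH

/-- Normal form of a meromorphic function on the upper half plane. -/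
def nfH (f : ℍ → ℂ) : ℍ → ℂ :=
  fun z => toMeromorphicNFAt (f ∘ ofComplex) (z : ℂ) (z : ℂ)

theorem nfH_comp_ofComplex_eventuallyEq (hf : IsMeroRaw f) (z : ℍ) :
    nfH f ∘ ofComplex =ᶠ[𝓝 (z : ℂ)] toMeromorphicNFOn (f ∘ ofComplex) upperHalfPlaneSet := by
  filter_upwards [isOpen_upperHalfPlaneSet.mem_nhds z.im_pos] with w hw
  rw [toMeromorphicNFOn_eq_toMeromorphicNFAt hf hw, comp_apply, nfH,
    ofComplex_apply_of_im_pos hw]

theorem isMero_nfH (hf : IsMeroRaw f) : IsMero (nfH f) := fun z =>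
  (meromorphicNFAt_congr (nfH_comp_ofComplex_eventuallyEq hf z)).2
    (meromorphicNFOn_toMeromorphicNFOn _ _ z.im_pos)

theorem nfH_eventuallyEq (hf : IsMeroRaw f) (z : ℍ) :
    nfH f ∘ ofComplex =ᶠ[𝓝[≠] (z : ℂ)] f ∘ ofComplex :=
  ((nfH_comp_ofComplex_eventuallyEq hf z).filter_mono nhdsWithin_le_nhds).trans
    (hf.toMeromorphicNFOn_eq_self_on_nhdsNE z.im_pos)

theorem nfH_apply_of_meromorphicNFAt {z : ℍ} (hz : MeromorphicNFAt (f ∘ ofComplex) (z : ℂ)) :
    nfH f z = f z := by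
  rw [nfH, toMeromorphicNFAt_eq_self.2 hz, comp_apply, ofComplex_apply]

theorem nfH_apply_of_analyticAt {z : ℍ} (hz : AnalyticAt ℂ (f ∘ ofComplex) (z : ℂ)) :
    nfH f z = f z := nfH_apply_of_meromorphicNFAt hz.meromorphicNFAt

theorem nfH_eq_self (hf : IsMero f) : nfH f = f :=
  funext fun z => nfH_apply_of_meromorphicNFAt (hf z)

theorem nfH_congr (hfg : ∀ z : ℍ, f ∘ ofComplex =ᶠ[𝓝[≠] (z : ℂ)] g ∘ ofComplex) : nfH f = nfH g :=
  funext fun z => (toMeromorphicNFAt_eventuallyEq_nhds_congr (hfg z)).eq_of_nhds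

theorem meromorphicOrderAt_nfH (hf : IsMeroRaw f) (z : ℍ) :
    meromorphicOrderAt (nfH f ∘ ofComplex) (z : ℂ) =
      meromorphicOrderAt (f ∘ ofComplex) (z : ℂ) :=
  meromorphicOrderAt_congr (nfH_eventuallyEq hf z)

end nfH

section identity

theorem isPreconnected_upperHalfPlaneSet : IsPreconnected upperHalfPlaneSet :=
  (convex_halfSpace_im_gt 0).isPreconnected

theorem IsMeroRaw.order_ne_top (hf : IsMeroRaw f) {z : ℍ}
    (hz : meromorphicOrderAt (f ∘ ofComplex) (z : ℂ) ≠ ⊤) (w : ℍ) :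
    meromorphicOrderAt (f ∘ ofComplex) (w : ℂ) ≠ ⊤ :=
  hf.meromorphicOrderAt_ne_top_of_isPreconnected isPreconnected_upperHalfPlaneSet z.im_pos w.im_pos hz

/-- Identity theorem. -/
theorem IsMero.eq_of_eventuallyEq (hf : IsMero f) (hg : IsMero g) {z : ℍ}
    (hfg : f ∘ ofComplex =ᶠ[𝓝[≠] (z : ℂ)] g ∘ ofComplex) : f = g := by
  funext w
  have hz : meromorphicOrderAt ((f - g) ∘ ofComplex) (z : ℂ) = ⊤ := by
    rw [meromorphicOrderAt_eq_top_iff]
    filter_upwards [hfg] with x hx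
    simp only [comp_apply] at hx
    simp [hx]
  have hw : meromorphicOrderAt ((f - g) ∘ ofComplex) (w : ℂ) = ⊤ := by
    by_contra hne
    exact (hf.raw.sub hg.raw).order_ne_top hne z hz
  rw [meromorphicOrderAt_eq_top_iff] at hw
  have h2 : f ∘ ofComplex =ᶠ[𝓝[≠] (w : ℂ)] g ∘ ofComplex := by
    filter_upwards [hw] with x hx
    simpa [sub_eq_zero] using hx
  simpa [ofComplex_apply] using
    (((hf w).eventuallyEq_nhdsNE_iff_eventuallyEq_nhds (hg w)).1 h2).eq_of_nhds

theorem eventually_nhds_of_atImInfty {P : ℍ → Prop} (hP : ∀ᶠ z in atImInfty, P z) :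
    ∃ A : ℝ, ∀ z : ℍ, A < z.im → ∀ᶠ w in 𝓝 (z : ℂ), 0 < w.im ∧ P (ofComplex w) := by
  rw [Filter.Eventually, atImInfty_mem] at hP
  obtain ⟨A, hA⟩ := hP
  refine ⟨A, fun z hz => ?_⟩
  filter_upwards [isOpen_upperHalfPlaneSet.mem_nhds z.im_pos,
    (isOpen_lt continuous_const Complex.continuous_im).mem_nhds (show A < (z : ℂ).im from hz)]
    with w hw hw'
  refine ⟨hw, hA _ ?_⟩
  rw [ofComplex_apply_of_im_pos hw]
  exact le_of_lt hw'

theorem exists_im_gt (A : ℝ) : ∃ z : ℍ, A < z.im := by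
  refine ⟨⟨Complex.I * (max A 0 + 1 : ℝ), ?_⟩, ?_⟩
  · simp; positivity
  · show A < (Complex.I * ((max A 0 + 1 : ℝ) : ℂ)).im
    simp
    linarith [le_max_left A 0]

theorem IsMero.eq_of_eventuallyEq_atImInfty (hf : IsMero f) (hg : IsMero g)
    (hfg : f =ᶠ[atImInfty] g) : f = g := by
  obtain ⟨A, hA⟩ := eventually_nhds_of_atImInfty hfg
  obtain ⟨z, hz⟩ := exists_im_gt A
  exact hf.eq_of_eventuallyEq hg
    (eventually_nhdsWithin_of_eventually_nhds ((hA z hz).mono fun w hw => hw.2))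

theorem HasQExp.eventually_analyticAt (hh : 0 < h) (hf : HasQExp h f y) :
    ∀ᶠ z : ℍ in atImInfty, AnalyticAt ℂ (f ∘ ofComplex) (z : ℂ) := by
  obtain ⟨G, hG, -, hev, -⟩ :=
    hf.exists_analyticAt hh (m := y.order) fun k hk => HahnSeries.coeff_eq_zero_of_lt_order hk
  have hboth := hev.and ((tendsto_qParam_atImInfty hh).eventually hG.eventually_analyticAt)
  obtain ⟨A, hA⟩ := eventually_nhds_of_atImInfty hboth
  rw [Filter.Eventually, atImInfty_mem]
  refine ⟨A + 1, fun z hz => ?_⟩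
  have hz' := hA z (by linarith)
  have hAt : AnalyticAt ℂ G (Periodic.qParam h (z : ℂ)) := by
    simpa [ofComplex_apply] using hz'.self_of_nhds.2.2
  have hq : AnalyticAt ℂ (Periodic.qParam h) (z : ℂ) :=
    (Periodic.differentiable_qParam (h := h)).analyticAt _
  have hpow : AnalyticAt ℂ (fun w : ℂ => Periodic.qParam h w ^ y.order) (z : ℂ) :=
    hq.zpow (Periodic.qParam_ne_zero _)
  refine (hpow.mul (hAt.comp hq)).congr ?_
  filter_upwards [hz'] with w hw
  rw [comp_apply, hw.2.1, qPow_eq_zpow, ofComplex_apply_of_im_pos hw.1]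
  rfl

theorem HasQExp.nfH (hh : 0 < h) (hf : HasQExp h f y) : HasQExp h (nfH f) y :=
  hf.congr <| by
    filter_upwards [hf.eventually_analyticAt hh] with z hz
    exact (nfH_apply_of_analyticAt hz).symm

theorem IsMero.eq_of_hasQExp (hh : 0 < h) (hf : IsMero f) (hg : IsMero g) (hfy : HasQExp h f y)
    (hgy : HasQExp h g y) : f = g := by
  exact hf.eq_of_eventuallyEq_atImInfty hg (hfy.eventually_eq hgy)

theorem ev_eq_of_isMero {y : LaurentSeries ℂ} (hf : IsMero f) (hy : HasQExp 1 f y) : ev y = f := by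
  have hex : ∃ f : ℍ → ℂ, IsMero f ∧ HasQExp 1 f y := ⟨f, hf, hy⟩
  rw [ev, dif_pos hex]
  exact hex.choose_spec.1.eq_of_hasQExp one_pos hf hex.choose_spec.2 hy

theorem HasQExp.order_ne_top (hh : 0 < h) (hf : IsMeroRaw f) (hfy : HasQExp h f y) (hy : y ≠ 0)
    (z : ℍ) : meromorphicOrderAt (f ∘ ofComplex) (z : ℂ) ≠ ⊤ := by
  obtain ⟨A, hA⟩ := eventually_nhds_of_atImInfty (hfy.eventually_ne_zero hh hy)
  obtain ⟨w, hw⟩ := exists_im_gt A
  refine hf.order_ne_top (z := w) ?_ z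
  rw [meromorphicOrderAt_ne_top_iff_eventually_ne_zero (hf w w.im_pos)]
  exact eventually_nhdsWithin_of_eventually_nhds ((hA w hw).mono fun x hx => hx.2)

end identity

section moebius

theorem comp_smul_ofComplex (f : ℍ → ℂ) (g : GL (Fin 2) ℝ) :
    (fun z : ℍ => f (g • z)) ∘ ofComplex =
      (f ∘ ofComplex) ∘ fun w : ℂ => ((g • ofComplex w : ℍ) : ℂ) := by
  funext w
  simp [ofComplex_apply]

theorem IsMero.comp_glSmul (hf : IsMero f) {g : GL (Fin 2) ℝ} (hg : 0 < g.val.det) :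
    IsMero fun z => f (g • z) := fun z => by
  rw [comp_smul_ofComplex]
  refine MeromorphicNFAt.comp_analyticAt ?_ (z.analyticAt_smul hg)
  simpa [ofComplex_apply] using hf (g • z)

theorem IsMeroRaw.comp_glSmul (hf : IsMeroRaw f) {g : GL (Fin 2) ℝ} (hg : 0 < g.val.det) :
    IsMeroRaw fun z => f (g • z) := fun x hx => by
  rw [comp_smul_ofComplex]
  refine MeromorphicAt.comp_analyticAt ?_ ((⟨x, hx⟩ : ℍ).analyticAt_smul hg)
  exact hf _ (g • ofComplex x).im_pos

theorem det_pos_SL (γ : SL(2, ℤ)) : 0 < ((γ : GL (Fin 2) ℝ)).val.det := by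
  have h := γ.2
  rw [Matrix.det_fin_two] at h
  have h' : (γ 0 0 : ℝ) * γ 1 1 - γ 0 1 * γ 1 0 = 1 := by exact_mod_cast h
  simp [Matrix.det_fin_two, h']

theorem IsMero.comp_sl (hf : IsMero f) (γ : SL(2, ℤ)) : IsMero fun z => f (γ • z) :=
  hf.comp_glSmul (det_pos_SL γ)

theorem IsMeroRaw.comp_sl (hf : IsMeroRaw f) (γ : SL(2, ℤ)) : IsMeroRaw fun z => f (γ • z) :=
  hf.comp_glSmul (det_pos_SL γ)

theorem meromorphicOrderAt_comp_glSmul (f : ℍ → ℂ) {g : GL (Fin 2) ℝ} (hg : 0 < g.val.det)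
    (z : ℍ) : meromorphicOrderAt ((fun w => f (g • w)) ∘ ofComplex) (z : ℂ) =
      meromorphicOrderAt (f ∘ ofComplex) ((g • z : ℍ) : ℂ) :=
  UpperHalfPlane.meromorphicOrderAt_comp_smul hg

theorem ordH_comp_sl (f : ℍ → ℂ) (γ : SL(2, ℤ)) (z : ℍ) :
    ordH (fun w => f (γ • w)) z = ordH f (γ • z) :=
  congrArg WithTop.untop₀ (meromorphicOrderAt_comp_glSmul f (det_pos_SL γ) z)

theorem nfH_comp_glSmul (hf : IsMeroRaw f) {g : GL (Fin 2) ℝ} (hg : 0 < g.val.det) :
    nfH (fun z => f (g • z)) = fun z => nfH f (g • z) := by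
  have h1 : IsMero fun z => nfH f (g • z) := (isMero_nfH hf).comp_glSmul hg
  rw [← nfH_eq_self h1]
  refine nfH_congr fun z => ?_
  rw [comp_smul_ofComplex, comp_smul_ofComplex]
  have hd : ∀ᶠ w in 𝓝[≠] (z : ℂ), ((g • ofComplex w : ℍ) : ℂ) ∈ ({((g • z : ℍ) : ℂ)}ᶜ : Set ℂ) := by
    filter_upwards [eventually_nhdsWithin_of_eventually_nhds
      (isOpen_upperHalfPlaneSet.mem_nhds z.im_pos), self_mem_nhdsWithin] with w hw hne
    intro heq
    rw [Set.mem_singleton_iff] at heq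
    have h3 := UpperHalfPlane.ext heq
    rw [smul_left_cancel_iff, ofComplex_apply_of_im_pos hw] at h3
    exact hne (congrArg UpperHalfPlane.coe h3)
  have hc := (z.analyticAt_smul hg).continuousAt.tendsto
  simp only [ofComplex_apply] at hc
  have ht : Tendsto (fun w : ℂ => ((g • ofComplex w : ℍ) : ℂ)) (𝓝[≠] (z : ℂ))
      (𝓝[≠] ((g • z : ℍ) : ℂ)) :=
    tendsto_nhdsWithin_iff.2 ⟨hc.mono_left nhdsWithin_le_nhds, hd⟩
  exact ht.eventually (nfH_eventuallyEq hf (g • z)).symm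

end moebius

section expansions

/-- A periodic function, analytic and of finite order high up, has a `q`-expansion. -/
theorem exists_hasQExp_of_periodic (hh : 0 < h) (hper : ∀ z : ℍ, f (h +ᵥ z) = f z)
    (han : ∀ᶠ z : ℍ in atImInfty, AnalyticAt ℂ (f ∘ ofComplex) (z : ℂ))
    (n : ℤ) (hbd : IsBoundedAtImInfty fun z : ℍ => qPow h n z * f z) :
    ∃ y : LaurentSeries ℂ, HasQExp h f y ∧ ∀ k < -n, y.coeff k = 0 := by
  let φ : ℍ → ℂ := fun z => qPow h n z * f z
  have hqper : ∀ z : ℍ, qPow h n (h +ᵥ z) = qPow h n z := fun z => by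
    have hh' : (h : ℂ) ≠ 0 := by exact_mod_cast hh.ne'
    rw [qPow, qPow, coe_vadd]
    conv_rhs => rw [← Complex.exp_periodic.int_mul n]
    congr 1
    field_simp
    ring
  have hP : Periodic (φ ∘ ofComplex) (h : ℂ) := by
    intro w
    by_cases hw : 0 < w.im
    · have hw' : 0 < (w + h).im := by simp [hw]
      simp only [comp_apply, ofComplex_apply_of_im_pos hw', ofComplex_apply_of_im_pos hw]
      have he : (⟨w + h, hw'⟩ : ℍ) = h +ᵥ (⟨w, hw⟩ : ℍ) := by
        ext; simp [add_comm]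
      rw [he]
      simp only [φ, hqper, hper]
    · have hw' : (w + h).im ≤ 0 := by simpa using not_lt.1 hw
      simp [ofComplex_apply_of_im_nonpos hw', ofComplex_apply_of_im_nonpos (not_lt.1 hw)]
  obtain ⟨A, hA⟩ := eventually_nhds_of_atImInfty han
  have hanφ : ∀ w : ℂ, max A 0 < w.im → AnalyticAt ℂ (φ ∘ ofComplex) w := by
    intro w hw
    have hw0 : 0 < w.im := lt_of_le_of_lt (le_max_right _ _) hw
    have hwA := (hA ⟨w, hw0⟩ (lt_of_le_of_lt (le_max_left _ _) hw)).self_of_nhds.2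
    rw [ofComplex_apply_of_im_pos hw0] at hwA
    have hq : AnalyticAt ℂ (fun u : ℂ => Periodic.qParam h u ^ n) w :=
      ((Periodic.differentiable_qParam (h := h)).analyticAt _).zpow (Periodic.qParam_ne_zero _)
    refine (hq.mul hwA).congr ?_
    filter_upwards [isOpen_upperHalfPlaneSet.mem_nhds hw0] with u hu
    rw [Pi.mul_apply, comp_apply, comp_apply, ofComplex_apply_of_im_pos hu]
    simp [φ, qPow_eq_zpow]
  have hev : ∀ᶠ w in comap Complex.im atTop, DifferentiableAt ℂ (φ ∘ ofComplex) w :=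
    eventually_of_mem (preimage_mem_comap (Ioi_mem_atTop (max A 0)))
      fun w hw => (hanφ w hw).differentiableAt
  have h0 : DifferentiableAt ℂ (Periodic.cuspFunction h (φ ∘ ofComplex)) 0 :=
    hP.differentiableAt_cuspFunction_zero hh hev (hbd.comp_tendsto tendsto_comap_im_ofComplex)
  have hne := hP.eventually_differentiableAt_cuspFunction_nhds_ne_zero hh hev
  have hall : ∀ᶠ q in 𝓝 (0 : ℂ), DifferentiableAt ℂ (Periodic.cuspFunction h (φ ∘ ofComplex)) q := by
    rw [eventually_nhdsWithin_iff] at hne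
    filter_upwards [hne] with q hq
    rcases eq_or_ne q 0 with rfl | hq0
    · exact h0
    · exact hq hq0
  obtain ⟨s, hs, hs', hs0⟩ := eventually_nhds_iff.1 hall
  have hG : AnalyticAt ℂ (Periodic.cuspFunction h (φ ∘ ofComplex)) 0 :=
    DifferentiableOn.analyticAt (fun q hq => (hs q hq).differentiableWithinAt) (hs'.mem_nhds hs0)
  obtain ⟨y, hy, hy', -⟩ := exists_hasQExp_of_analyticAt (f := f) hh hG (-n) <|
    Eventually.of_forall fun z => by
      rw [hP.eq_cuspFunction hh.ne', comp_apply, ofComplex_apply]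
      simp only [φ]
      rw [← mul_assoc, ← qPow_add, neg_add_cancel, qPow_zero, one_mul]
  exact ⟨y, hy, hy'⟩

end expansions

end FLTAgent.Modular
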