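import Fermat.Agent.Modular.LevelOne

/-!
# `ℂ(j, j_N)` contains every modular function of level `Γ₀(N)`

`IsModFun.mem_FC` and `exists_eq_ev'`: symmetric combinations of the conjugates of `f` and
`j (N z)` over the cosets of `Γ₀(N)` descend to level one, and the expansions of the conjugates of
`j (N z)` are distinct (`conj_series_injective`), so interpolation writes `f` in `ℂ(j, j_N)`.
-/

set_option autoImplicit false

noncomputable section

open UpperHalfPlane CongruenceSubgroup Filter Topology Function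
open scoped MatrixGroups
open FLTAgent.ModularCosets (CosetIdx)

namespace FLTAgent.Modular

variable {N : ℕ} [NeZero N] {f : ℍ → ℂ}

/-- The permutation of the cosets given by right translation. -/
def cosetPerm (g : SL(2, ℤ)) (c : CosetIdx N) : CosetIdx N :=
  (ModularCosets.existsUnique_cosetIdx (c.rep * g)).choose

theorem cosetPerm_spec (g : SL(2, ℤ)) (c : CosetIdx N) :
    c.rep * g * (cosetPerm g c).rep⁻¹ ∈ Gamma0 N :=
  (ModularCosets.existsUnique_cosetIdx (c.rep * g)).choose_spec.1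

theorem cosetPerm_bijective (g : SL(2, ℤ)) : Bijective (cosetPerm (N := N) g) := by
  refine Finite.injective_iff_bijective.1 fun c c' h => ?_
  have h1 := cosetPerm_spec g c
  rw [h] at h1
  have h2 := mul_mem h1 (inv_mem (cosetPerm_spec g c'))
  have h3 : c.rep * c'.rep⁻¹ ∈ Gamma0 N := by convert h2 using 1; group
  exact (ModularCosets.existsUnique_cosetIdx c.rep).unique (by simp) h3

theorem IsModFun.smul_cosetPerm (hf : IsModFun N f) (g : SL(2, ℤ)) (c : CosetIdx N) (z : ℍ) :
    f (c.rep • (g • z)) = f ((cosetPerm g c).rep • z) := by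
  have h := hf.smul ⟨_, cosetPerm_spec g c⟩ ((cosetPerm g c).rep • z)
  simp only [mul_smul, inv_smul_smul] at h
  exact h

theorem IsModFun.smul_rep_eq (hf : IsModFun N f) {c : CosetIdx N} (hc : c.rep ∈ Gamma0 N) :
    (fun z => f (c.rep • z)) = f := hf.smul' hc

/-- A symmetric combination of conjugates descends to level one. -/
theorem exists_qExpand_eq_of_invariant {h : ℍ → ℂ} {Y : LaurentSeries ℂ} (hraw : IsMeroRaw h)
    (hinv : ∀ (g : SL(2, ℤ)) (z : ℍ), h (g • z) = h z) (hY : HasQExp N h Y) :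
    ∃ t ∈ IntermediateField.adjoin ℂ {ModularCurve.coeffEmb ℂ ModularCurve.jq},
      ModularCurve.qExpand ℂ N t = Y := by
  have hN : (0 : ℝ) < N := by exact_mod_cast Nat.pos_of_ne_zero (NeZero.ne N)
  have hmod : IsModFun N (nfH h) :=
    .of_nfH hraw (fun γ z => hinv γ z) fun γ => ⟨Y, by
      rw [show (fun z => h (γ • z)) = h from funext (hinv γ)]; exact hY⟩
  have hall : ∀ (γ : SL(2, ℤ)) (z : ℍ), nfH h (γ • z) = nfH h z := fun γ z => by
    rw [ModularGroup.sl_moeb, ← congrFun (nfH_comp_glSmul hraw (det_pos_SL γ)) z]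
    congr 1
    exact funext (hinv γ)
  have hone : IsModFun 1 (nfH h) := by
    refine ⟨hmod.mero, fun γ => ?_, fun γ z => hall γ z⟩
    obtain ⟨n, hn⟩ := hmod.meroCusp γ
    refine ⟨n, Asymptotics.IsBigO.trans (Asymptotics.IsBigO.of_bound 1
      (Eventually.of_forall fun z => ?_)) hn⟩
    rw [one_mul, norm_mul, norm_mul, norm_qPow, norm_qPow, zpow_natCast, zpow_natCast]
    refine mul_le_mul_of_nonneg_right (pow_le_pow_left₀ (Real.exp_pos _).le ?_ n) (norm_nonneg _)
    have h1 : (1 : ℝ) ≤ N := by exact_mod_cast Nat.pos_of_ne_zero (NeZero.ne N)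
    simp only [Real.exp_le_exp, Nat.cast_one, div_one]
    rw [le_div_iff₀ hN]
    nlinarith [Real.pi_pos, z.im_pos, mul_pos Real.pi_pos z.im_pos]
  obtain ⟨t, ht⟩ := hone.exists_hasQExp 1
  simp only [one_smul, Nat.cast_one] at ht
  refine ⟨t, hone.mem_adjoin_jq ht, ?_⟩
  have h2 := ht.qExpand N
  rw [mul_one] at h2
  exact h2.unique hN (hY.nfH hN)

theorem coeff_X_sub_C_mul_zero {R : Type*} [CommRing R] (a : R) (p : Polynomial R) :
    ((Polynomial.X - Polynomial.C a) * p).coeff 0 = -(a * p.coeff 0) := by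
  simp [sub_mul]

theorem coeff_X_sub_C_mul_succ {R : Type*} [CommRing R] (a : R) (p : Polynomial R) (k : ℕ) :
    ((Polynomial.X - Polynomial.C a) * p).coeff (k + 1) = p.coeff k - a * p.coeff (k + 1) := by
  simp [sub_mul, Polynomial.coeff_X_mul]

theorem raw_hasQExp_coeff_prod {ι : Type*} (s : Finset ι) {h : ℝ} (F : ι → ℍ → ℂ)
    (Y : ι → LaurentSeries ℂ) (hraw : ∀ i ∈ s, IsMeroRaw (F i))
    (hF : ∀ i ∈ s, HasQExp h (F i) (Y i)) (k : ℕ) :
    IsMeroRaw (fun z => (∏ i ∈ s, (Polynomial.X - Polynomial.C (F i z))).coeff k) ∧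
      HasQExp h (fun z => (∏ i ∈ s, (Polynomial.X - Polynomial.C (F i z))).coeff k)
        ((∏ i ∈ s, (Polynomial.X - Polynomial.C (Y i))).coeff k) := by
  classical
  induction s using Finset.induction generalizing k with
  | empty =>
    simp only [Finset.prod_empty, Polynomial.coeff_one]
    split_ifs
    · exact ⟨isMero_one.raw, hasQExp_one h⟩
    · exact ⟨isMero_zero.raw, hasQExp_zero h⟩
  | insert i s hi ih =>
    have hs := ih (fun j hj => hraw j (by simp [hj])) (fun j hj => hF j (by simp [hj]))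
    have hiF := hF i (by simp)
    have hiraw := hraw i (by simp)
    simp only [Finset.prod_insert hi]
    rcases k with _ | k
    · simp only [coeff_X_sub_C_mul_zero]
      refine ⟨?_, ?_⟩
      · exact (hiraw.mul (hs 0).1).neg
      · exact HasQExp.neg (HasQExp.mul hiF (hs 0).2)
    · simp only [coeff_X_sub_C_mul_succ]
      refine ⟨?_, ?_⟩
      · exact (hs k).1.sub (hiraw.mul (hs (k + 1)).1)
      · exact HasQExp.sub (hs k).2 (HasQExp.mul hiF (hs (k + 1)).2)

section conjugates

/-- The expansion of `z ↦ j (N c z)` for a coset representative `c`. -/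
theorem exists_conj_series (c : CosetIdx N) : ∃ X : LaurentSeries ℂ,
    HasQExp N (fun z => jMulFun N (c.rep • z)) X ∧
      (∀ k < -((c.a * c.a : ℕ) : ℤ), X.coeff k = 0) ∧
      X.coeff (-((c.a * c.a : ℕ) : ℤ)) =
        (Complex.exp (2 * Real.pi * Complex.I * c.b / c.D))⁻¹ := by
  have : NeZero c.a := ⟨c.a_ne_zero⟩
  have : NeZero c.D := ⟨c.D_ne_zero⟩
  have had : (c.a : ℝ) * c.D ≠ 0 := by
    rw [← Nat.cast_mul, c.a_mul_D]; exact_mod_cast NeZero.ne N
  let φ : ℍ → ℍ := fun z => ModularForm.upperTriangularGL c.a c.b c.D had • z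
  have hφ : ∀ z : ℍ, ((φ z : ℍ) : ℂ) = ((c.a : ℂ) * z + ((c.b : ℤ) : ℂ)) / c.D := fun z => by
    rw [coe_smul_of_det_pos]
    · simp [num, denom]
    · rw [Matrix.GeneralLinearGroup.val_det_apply, ModularForm.val_upperTriangularGL,
        Matrix.det_fin_two_of]
      simp only [mul_zero, sub_zero, ← Nat.cast_mul, c.a_mul_D, Nat.cast_pos]
      exact Nat.pos_of_ne_zero (NeZero.ne N)
  have hj : ∀ z, jFun (φ z) = jMulFun N (c.rep • z) := fun z => by
    rw [jMulFun, ← jFun_smul c.repLeft (φ z)]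
    congr 1
    simp only [φ, ModularGroup.sl_moeb, ← mul_smul]
    congr 1
    ext i j
    have := congrArg (fun M : Matrix (Fin 2) (Fin 2) ℤ => ((M i j : ℤ) : ℝ)) c.diag_mul_rep
    fin_cases i <;> fin_cases j <;>
      simpa [ModularCosets.diagOne, ModularCosets.upperTri, Matrix.mul_apply, Fin.sum_univ_two,
        ModularForm.val_heckeDiagMatrix (NeZero.ne N)] using this.symm
  have h1 := (hasQExp_jFun.comp_affine one_ne_zero c.a c.D (c.b : ℤ) hφ).qExpand c.a
  rw [show (c.a : ℝ) * ((c.D : ℝ) * 1) = N by rw [mul_one, ← Nat.cast_mul, c.a_mul_D],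
    ModularCurve.qExpand_qExpand] at h1
  refine ⟨_, h1.congr (Eventually.of_forall hj), fun k hk => ?_, ?_⟩
  · by_cases hdvd : ((c.a * c.a : ℕ) : ℤ) ∣ k
    · obtain ⟨i, rfl⟩ := hdvd
      rw [ModularCurve.qExpand_coeff_mul, twistSeries_coeff, ModularCurve.coeffEmb_coeff,
        ModularCurve.coeff_jq_of_lt, map_zero, mul_zero]
      nlinarith
    · exact ModularCurve.qExpand_coeff_of_not_dvd _ _ hdvd
  · rw [show -((c.a * c.a : ℕ) : ℤ) = ((c.a * c.a : ℕ) : ℤ) * (-1) by ring,
      ModularCurve.qExpand_coeff_mul, twistSeries_coeff, ModularCurve.coeffEmb_coeff,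
      ModularCurve.coeff_jq_neg_one, map_one, mul_one, zpow_neg, zpow_one,
      Units.val_inv_eq_inv_val, Units.val_mk0]
    simp

theorem conj_series_injective {X : CosetIdx N → LaurentSeries ℂ}
    (hX : ∀ c, HasQExp N (fun z => jMulFun N (c.rep • z)) (X c)) : Injective X := by
  intro c c' heq
  have hN : (0 : ℝ) < N := by exact_mod_cast Nat.pos_of_ne_zero (NeZero.ne N)
  obtain ⟨Xc, h1, h2, h3⟩ := exists_conj_series c
  obtain ⟨Xc', h1', h2', h3'⟩ := exists_conj_series c'
  have hXX : Xc = Xc' := by rw [h1.unique hN (hX c), h1'.unique hN (hX c'), heq]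
  subst hXX
  have hsq : c.a * c.a = c'.a * c'.a := by
    rcases lt_trichotomy (c.a * c.a) (c'.a * c'.a) with h | h | h
    · have := h2 (-((c'.a * c'.a : ℕ) : ℤ)) (by omega)
      rw [h3'] at this
      simp [Complex.exp_ne_zero] at this
    · exact h
    · have := h2' (-((c.a * c.a : ℕ) : ℤ)) (by omega)
      rw [h3] at this
      simp [Complex.exp_ne_zero] at this
  have ha : c.a = c'.a := Nat.mul_self_inj.1 hsq
  have hD : c.D = c'.D := by rw [ModularCosets.CosetIdx.D_def, ModularCosets.CosetIdx.D_def, ha]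
  refine ModularCosets.CosetIdx.ext' ha ?_
  rw [hsq, h3', inv_inj, ← hD] at h3
  have hζ := Complex.isPrimitiveRoot_exp c.D c.D_ne_zero
  refine (hζ.pow_inj c.b_lt (hD ▸ c'.b_lt) ?_)
  rw [← Complex.exp_nat_mul, ← Complex.exp_nat_mul]
  convert h3.symm using 2 <;> ring

end conjugates

section

attribute [local irreducible] jMulFun

/-- `ℂ(j, j_N)` is the field of all modular functions of level `Γ₀(N)`. -/
theorem IsModFun.mem_FC (hf : IsModFun N f) {y : LaurentSeries ℂ} (hy : HasQExp 1 f y) :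
    y ∈ FC N := by
  classical
  have hN : (0 : ℝ) < N := by exact_mod_cast Nat.pos_of_ne_zero (NeZero.ne N)
  set φ := ModularCurve.qExpand ℂ N with hφ
  set K : Subfield (LaurentSeries ℂ) := (FC N).toSubfield.map φ with hK
  have hjN := isModFun_jMulFun (N := N) (d := N) dvd_rfl
  choose X hX _ _ using exists_conj_series (N := N)
  choose Y hY using fun c : CosetIdx N => hf.exists_hasQExp c.rep
  have hXinj := conj_series_injective hX
  -- the coset of the identity
  obtain ⟨c₀, hc₀, -⟩ := ModularCosets.existsUnique_cosetIdx (N := N) 1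
  simp only [one_mul, inv_mem_iff] at hc₀
  have hX0 : X c₀ = φ (ModularCurve.coeffEmb ℂ (ModularCurve.qExpand ℚ N ModularCurve.jq)) := by
    have h := (hasQExp_jMulFun N).qExpand N
    rw [mul_one, ← hjN.smul_rep_eq hc₀] at h
    exact (hX c₀).unique hN h
  have hY0 : Y c₀ = φ y := by
    have h := hy.qExpand N
    rw [mul_one, ← hf.smul_rep_eq hc₀] at h
    exact (hY c₀).unique hN h
  have hjFC : IntermediateField.adjoin ℂ {ModularCurve.coeffEmb ℂ ModularCurve.jq} ≤ FC N :=
    IntermediateField.adjoin_le_iff.mpr (Set.singleton_subset_iff.mpr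
      (ModularCurve.coeffEmb_mem_laurentBaseChange ℂ
        (ModularCurve.modularFunctionField_le_full N (ModularCurve.jq_mem N))))
  have hX0K : X c₀ ∈ K := ⟨_, ModularCurve.coeffEmb_mem_laurentBaseChange ℂ
    (ModularCurve.jqd_mem_full N dvd_rfl), hX0.symm⟩
  have hdesc : ∀ {h : ℍ → ℂ} {Z : LaurentSeries ℂ}, IsMeroRaw h →
      (∀ (g : SL(2, ℤ)) (z : ℍ), h (g • z) = h z) → HasQExp N h Z → Z ∈ K := fun hr hi he => by
    obtain ⟨t, ht, htZ⟩ := exists_qExpand_eq_of_invariant hr hi he
    exact ⟨t, hjFC ht, htZ⟩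
  -- the product of the conjugate factors has coefficients in `K`
  set P := ∏ c : CosetIdx N, (Polynomial.X - Polynomial.C (X c)) with hP
  have hPK : ∀ k, P.coeff k ∈ K := fun k => by
    obtain ⟨hr, he⟩ := raw_hasQExp_coeff_prod Finset.univ
      (fun c z => jMulFun N (c.rep • z)) X
      (fun c _ => IsMeroRaw.comp_sl (f := jMulFun N) hjN.mero.raw c.rep)
      (fun c _ => hX c) k
    refine hdesc hr (fun g z => ?_) he
    refine congrArg (fun p : Polynomial ℂ => p.coeff k) ?_
    exact Fintype.prod_bijective _ (cosetPerm_bijective g) _ _ fun c => by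
      rw [hjN.smul_cosetPerm g c z]
  set Q := ∏ c ∈ Finset.univ.erase c₀, (Polynomial.X - Polynomial.C (X c)) with hQ
  have hQK : ∀ k, Q.coeff k ∈ K := by
    have hPlift : P ∈ Polynomial.lifts K.subtype :=
      (Polynomial.lifts_iff_coeff_lifts P).2 fun k => ⟨⟨_, hPK k⟩, rfl⟩
    obtain ⟨P', hP'⟩ := hPlift
    have hQeq : Q = (P' /ₘ (Polynomial.X - Polynomial.C (⟨X c₀, hX0K⟩ : K))).map K.subtype := by
      rw [Polynomial.map_divByMonic _ (Polynomial.monic_X_sub_C _), ← Polynomial.coe_mapRingHom,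
        hP', Polynomial.coe_mapRingHom, Polynomial.map_sub, Polynomial.map_X, Polynomial.map_C,
        hP, ← Finset.mul_prod_erase _ _ (Finset.mem_univ c₀)]
      exact (Polynomial.mul_divByMonic_cancel_left _ (Polynomial.monic_X_sub_C _)).symm
    intro k
    rw [hQeq, Polynomial.coeff_map]
    exact SetLike.coe_mem _
  have hTK : ∀ k : ℕ, (∑ c, Y c * X c ^ k) ∈ K := fun k => by
    refine hdesc (h := ∑ c : CosetIdx N, (fun z => f (c.rep • z)) *
      (fun z => jMulFun N (c.rep • z)) ^ k) ?_ (fun g z => ?_)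
      (HasQExp.finsum _ fun c _ => (hY c).mul ((hX c).pow k))
    · exact IsMeroRaw.finsum _ fun c _ => (hf.mero.raw.comp_sl c.rep).mul
        (MeromorphicOn.pow (IsMeroRaw.comp_sl (f := jMulFun N) hjN.mero.raw c.rep) k)
    · simp only [Finset.sum_apply, Pi.mul_apply, Pi.pow_apply]
      exact Fintype.sum_bijective _ (cosetPerm_bijective g) _ _ fun c => by
        rw [hf.smul_cosetPerm g c z, hjN.smul_cosetPerm g c z]
  have hsum : ∑ k ∈ Finset.range (Q.natDegree + 1), Q.coeff k * ∑ c, Y c * X c ^ k =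
      Y c₀ * Q.eval (X c₀) := by
    simp_rw [Finset.mul_sum]
    rw [Finset.sum_comm, Finset.sum_eq_single c₀]
    · rw [Polynomial.eval_eq_sum_range, Finset.mul_sum]
      exact Finset.sum_congr rfl fun k _ => by ring
    · intro c _ hc
      have h0 : Q.eval (X c) = 0 := by
        rw [hQ, Polynomial.eval_prod, Finset.prod_eq_zero (Finset.mem_erase.2 ⟨hc, Finset.mem_univ c⟩)]
        simp
      rw [Polynomial.eval_eq_sum_range] at h0
      rw [← mul_zero (Y c), ← h0, Finset.mul_sum]
      exact Finset.sum_congr rfl fun k _ => by ring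
    · simp
  have hne : Q.eval (X c₀) ≠ 0 := by
    rw [hQ, Polynomial.eval_prod, Finset.prod_ne_zero_iff]
    intro c hc
    simpa [sub_eq_zero] using fun h => (Finset.mem_erase.1 hc).1 (hXinj h).symm
  have hmem : Y c₀ * Q.eval (X c₀) ∈ K :=
    hsum ▸ sum_mem fun k _ => mul_mem (hQK k) (hTK k)
  have hmem' : Q.eval (X c₀) ∈ K := by
    rw [Polynomial.eval_eq_sum_range]
    exact sum_mem fun k _ => mul_mem (hQK k) (pow_mem hX0K k)
  have hYK := div_mem hmem hmem'
  rw [mul_div_cancel_right₀ _ hne, hY0] at hYK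
  obtain ⟨t, ht, htY⟩ := hYK
  rwa [← ModularCurve.qExpand_injective N htY]

end

theorem exists_eq_ev' (hf : IsModFun N f) : ∃ y : FC N, ev (y : LaurentSeries ℂ) = f := by
  obtain ⟨Y, hY⟩ := hf.exists_hasQExp 1
  simp only [one_smul] at hY
  -- `f` has period one
  have hper : ∀ z : ℍ, f ((1 : ℝ) +ᵥ z) = f z := fun z => by
    rw [← UpperHalfPlane.modular_T_smul]
    exact hf.smul ⟨ModularGroup.T, by rw [Gamma0_mem]; simp [ModularGroup.T]⟩ z
  obtain ⟨n, hn⟩ := hY.exists_isBoundedAtImInfty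
    (by exact_mod_cast Nat.pos_of_ne_zero (NeZero.ne N))
  have hbd : IsBoundedAtImInfty fun z : ℍ => qPow 1 n z * f z := by
    refine Asymptotics.IsBigO.trans (Asymptotics.IsBigO.of_bound 1
      (Eventually.of_forall fun z => ?_)) hn
    rw [one_mul, norm_mul, norm_mul, norm_qPow, norm_qPow, zpow_natCast, zpow_natCast]
    refine mul_le_mul_of_nonneg_right (pow_le_pow_left₀ (Real.exp_pos _).le ?_ n) (norm_nonneg _)
    have h1 : (1 : ℝ) ≤ N := by exact_mod_cast Nat.pos_of_ne_zero (NeZero.ne N)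
    simp only [Real.exp_le_exp, div_one]
    rw [le_div_iff₀ (by linarith)]
    nlinarith [Real.pi_pos, z.im_pos, mul_pos Real.pi_pos z.im_pos]
  obtain ⟨y, hy, -⟩ := exists_hasQExp_of_periodic one_pos hper
    (hf.mero.eventually_analyticAt_of_bounded hbd) n hbd
  exact ⟨⟨y, hf.mem_FC hy⟩, ev_eq_of_isMero hf.mero hy⟩

end FLTAgent.Modular
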