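import Fermat.Agent.Modular.ModFun

/-!
# Modular functions of level one

A holomorphic invariant function bounded at `∞` is constant; one with a finite order pole at `∞` is
a polynomial in `j` (`mem_adjoin_jq_of_analytic`).  Clearing the finitely many poles by a
polynomial in `j` gives `IsModFun.mem_adjoin_jq`: every level-one modular function expands in
`ℂ(jq)`.
-/

set_option autoImplicit false

noncomputable section

open UpperHalfPlane CongruenceSubgroup Filter Topology Function
open scoped MatrixGroups ModularForm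

namespace FLTAgent.Modular

variable {f g : ℍ → ℂ}

theorem IsModFun.smul_one (hf : IsModFun 1 f) (γ : SL(2, ℤ)) (z : ℍ) : f (γ • z) = f z :=
  hf.smul ⟨γ, by rw [Gamma0_mem]; exact Subsingleton.elim _ _⟩ z

/-- A holomorphic invariant function, bounded at `∞`, is constant. -/
theorem exists_eq_const_of_invariant (han : ∀ z : ℍ, AnalyticAt ℂ (f ∘ ofComplex) (z : ℂ))
    (hinv : ∀ (γ : SL(2, ℤ)) (z : ℍ), f (γ • z) = f z) (hbd : IsBoundedAtImInfty f) :
    ∃ c : ℂ, f = fun _ => c := by
  have hslash : ∀ γ : SL(2, ℤ), f ∣[(0 : ℤ)] γ = f := fun γ => by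
    ext z
    rw [ModularForm.SL_slash_apply, hinv, neg_zero, zpow_zero, mul_one]
  let F : ModularForm 𝒮ℒ 0 :=
    { toFun := f
      slash_action_eq' := fun A hA => by
        obtain ⟨A, rfl⟩ := hA
        exact hslash A
      holo' := fun z => UpperHalfPlane.mdifferentiableAt_iff.2 (han z).differentiableAt
      bdd_at_cusps' := fun {c} hc => by
        rw [Subgroup.IsArithmetic.isCusp_iff_isCusp_SL2Z] at hc
        rw [OnePoint.isBoundedAt_iff_forall_SL2Z hc]
        intro γ _
        rw [hslash]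
        exact hbd }
  exact ModularFormClass.levelOne_weight_zero_const F

/-- A holomorphic modular function of level one is a polynomial in `j`. -/
theorem mem_adjoin_jq_of_analytic (n : ℕ) :
    ∀ {f : ℍ → ℂ} {y : LaurentSeries ℂ}, (∀ z : ℍ, AnalyticAt ℂ (f ∘ ofComplex) (z : ℂ)) →
      (∀ (γ : SL(2, ℤ)) (z : ℍ), f (γ • z) = f z) → HasQExp 1 f y →
      (∀ k < -(n : ℤ), y.coeff k = 0) →
      y ∈ Algebra.adjoin ℂ {ModularCurve.coeffEmb ℂ ModularCurve.jq} := by
  induction n with
  | zero =>
    intro f y han hinv hy hlow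
    have hbd : IsBoundedAtImInfty f :=
      ((hy.tendsto_leading one_pos (m := 0) fun k hk => hlow k (by simpa using hk)).congr
        fun z => by rw [neg_zero, qPow_zero, mul_one]).isBigO_one ℝ
    obtain ⟨c, rfl⟩ := exists_eq_const_of_invariant han hinv hbd
    rw [hy.unique one_pos (hasQExp_const 1 c)]
    exact Subalgebra.algebraMap_mem _ c
  | succ n ih =>
    intro f y han hinv hy hlow
    set J := ModularCurve.coeffEmb ℂ ModularCurve.jq with hJ
    set c := y.coeff (-((n + 1 : ℕ) : ℤ)) with hc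
    have hmem : y - algebraMap ℂ (LaurentSeries ℂ) c * J ^ (n + 1) ∈ Algebra.adjoin ℂ {J} := by
      refine ih (f := f - (fun _ => c) * jFun ^ (n + 1)) (fun z => ?_) (fun γ z => ?_)
        (hy.sub ((hasQExp_const 1 c).mul (hasQExp_jFun.pow (n + 1)))) fun k hk => ?_
      · exact (han z).sub (analyticAt_const.mul ((analyticAt_jFun z).pow (n + 1)))
      · simp only [Pi.sub_apply, Pi.mul_apply, Pi.pow_apply, hinv, jFun_smul]
      · have hpow : ∀ i, (J ^ (n + 1)).coeff i =
            algebraMap ℚ ℂ ((ModularCurve.jq ^ (n + 1)).coeff i) := fun i => by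
          rw [hJ, ← map_pow, ModularCurve.coeffEmb_coeff]
        rw [HahnSeries.coeff_sub, ModularCurve.algebraMap_laurentSeries_eq_single,
          HahnSeries.coeff_single_mul, sub_zero, hpow]
        rcases lt_or_eq_of_le (show k ≤ -((n + 1 : ℕ) : ℤ) by push_cast; omega) with h | h
        · rw [hlow k h, ModularCurve.coeff_jq_pow_of_lt h, map_zero, mul_zero, sub_zero]
        · rw [h, ModularCurve.coeff_jq_pow_self, map_one, mul_one, sub_self]
    have h2 := Subalgebra.add_mem _ hmem
      (Subalgebra.mul_mem _ (Subalgebra.algebraMap_mem _ c)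
        (Subalgebra.pow_mem _ (Algebra.subset_adjoin (Set.mem_singleton J)) (n + 1)))
    rwa [sub_add_cancel] at h2

theorem mem_adjoin_jq_of_analytic' {y : LaurentSeries ℂ}
    (han : ∀ z : ℍ, AnalyticAt ℂ (f ∘ ofComplex) (z : ℂ))
    (hinv : ∀ (γ : SL(2, ℤ)) (z : ℍ), f (γ • z) = f z) (hy : HasQExp 1 f y) :
    y ∈ Algebra.adjoin ℂ {ModularCurve.coeffEmb ℂ ModularCurve.jq} :=
  mem_adjoin_jq_of_analytic (-y.order).toNat han hinv hy fun _ hk =>
    HahnSeries.coeff_eq_zero_of_lt_order (by omega)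

/-- A level-one modular function has, up to the modular group, finitely many poles. -/
theorem IsModFun.exists_finset_poles (hf : IsModFun 1 f) :
    ∃ S : Finset ℍ, ∀ z : ℍ, ¬ AnalyticAt ℂ (f ∘ ofComplex) (z : ℂ) →
      ∃ p ∈ S, ∃ γ : SL(2, ℤ), γ • z = p := by
  obtain ⟨y, hy⟩ := hf.exists_hasQExp 1
  simp only [one_smul, Nat.cast_one] at hy
  have hev := hy.eventually_analyticAt one_pos
  rw [Filter.Eventually, atImInfty_mem] at hev
  obtain ⟨A, hA⟩ := hev
  let T := ModularGroup.truncatedFundamentalDomain A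
  have hT : IsCompact T := ModularGroup.isCompact_truncatedFundamentalDomain A
  have hloc : ∀ p ∈ T, ∃ U ∈ 𝓝 p, ∀ z ∈ U, ¬ AnalyticAt ℂ (f ∘ ofComplex) (z : ℂ) → z = p := by
    intro p _
    have hev := (hf.mero.meromorphicAt p).eventually_analyticAt
    rw [eventually_nhdsWithin_iff] at hev
    exact ⟨_, UpperHalfPlane.continuous_coe.continuousAt.eventually hev, fun z hz hna =>
      UpperHalfPlane.ext (by by_contra hne; exact hna (hz hne))⟩
  choose! U hU hU' using hloc
  obtain ⟨S, hST, hS⟩ := hT.elim_nhds_subcover U hU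
  refine ⟨S, fun z hz => ?_⟩
  obtain ⟨γ, hγ⟩ := ModularGroup.exists_smul_mem_fd z
  have hna : ¬ AnalyticAt ℂ (f ∘ ofComplex) ((γ • z : ℍ) : ℂ) := by
    intro h
    apply hz
    have h2 := ((hf.mero.comp_sl γ z).meromorphicOrderAt_nonneg_iff_analyticAt).1
      (show 0 ≤ meromorphicOrderAt ((fun w => f (γ • w)) ∘ ofComplex) (z : ℂ) by
        have := (hf.mero (γ • z)).meromorphicOrderAt_nonneg_iff_analyticAt.2 h
        simp only [ModularGroup.sl_moeb] at this ⊢
        rwa [meromorphicOrderAt_comp_glSmul f (det_pos_SL γ) z])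
    rwa [show (fun w => f (γ • w)) = f from funext (hf.smul_one γ)] at h2
  have hle : (γ • z).im ≤ A := le_of_not_gt fun h => hna (hA _ h.le)
  have hmem := hS (show γ • z ∈ T from ⟨hγ, hle⟩)
  simp only [Set.mem_iUnion] at hmem
  obtain ⟨p, hp, hzp⟩ := hmem
  exact ⟨p, hp, γ, hU' p (hST p hp) _ hzp hna⟩

theorem coe_mul_self_nonneg {a : WithTop ℤ} (n : ℕ) (hn : (-(n : ℤ) : WithTop ℤ) ≤ a)
    {b : WithTop ℤ} (hb : 1 ≤ b) : 0 ≤ a + (n : WithTop ℤ) * b := by
  rcases Nat.eq_zero_or_pos n with rfl | hpos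
  · simpa using hn
  cases a with
  | top => simp
  | coe a =>
    cases b with
    | top =>
      rw [WithTop.mul_top (by exact_mod_cast hpos.ne')]
      simp
    | coe b =>
      norm_cast at hn hb ⊢
      have : (n : ℤ) * 1 ≤ n * b := by gcongr
      linarith

/-- Clearing the poles with a polynomial in `j`. -/
theorem IsModFun.exists_mul_analytic (hf : IsModFun 1 f) :
    ∃ P : Polynomial ℂ, P ≠ 0 ∧
      ∀ z : ℍ, AnalyticAt ℂ (nfH (f * fun w => P.eval (jFun w)) ∘ ofComplex) (z : ℂ) := by
  classical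
  obtain ⟨S, hS⟩ := hf.exists_finset_poles
  let m : ℍ → ℕ := fun p => (-ordH f p).toNat
  let P : Polynomial ℂ := ∏ p ∈ S, (Polynomial.X - Polynomial.C (jFun p)) ^ m p
  refine ⟨P, Finset.prod_ne_zero_iff.2 fun p _ => pow_ne_zero _ (Polynomial.X_sub_C_ne_zero _),
    fun z => ?_⟩
  have hPan : AnalyticAt ℂ ((fun w => P.eval (jFun w)) ∘ ofComplex) (z : ℂ) :=
    (P.differentiable.analyticAt _).comp (analyticAt_jFun z)
  have hraw : IsMeroRaw (f * fun w => P.eval (jFun w)) := hf.mero.raw.mul fun x hx =>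
    ((P.differentiable.analyticAt _).comp (analyticAt_jFun ⟨x, hx⟩)).meromorphicAt
  rw [← (isMero_nfH hraw z).meromorphicOrderAt_nonneg_iff_analyticAt,
    meromorphicOrderAt_nfH hraw]
  change 0 ≤ meromorphicOrderAt ((f ∘ ofComplex) * ((fun w => P.eval (jFun w)) ∘ ofComplex)) _
  rw [meromorphicOrderAt_mul (hf.mero.meromorphicAt z) hPan.meromorphicAt]
  by_cases hz : AnalyticAt ℂ (f ∘ ofComplex) (z : ℂ)
  · exact add_nonneg hz.meromorphicOrderAt_nonneg hPan.meromorphicOrderAt_nonneg
  obtain ⟨p, hp, γ, hγp⟩ := hS z hz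
  have hord : meromorphicOrderAt (f ∘ ofComplex) (z : ℂ) =
      meromorphicOrderAt (f ∘ ofComplex) (p : ℂ) := by
    rw [← hγp, ModularGroup.sl_moeb, ← meromorphicOrderAt_comp_glSmul f (det_pos_SL γ) z]
    exact congrArg (fun F => meromorphicOrderAt (F ∘ ofComplex) (z : ℂ))
      (funext (hf.smul_one γ)).symm
  have hj : jFun z = jFun p := by rw [← hγp, jFun_smul]
  set φ : ℂ → ℂ := fun w => jFun (ofComplex w) - jFun p with hφ
  set Q : Polynomial ℂ := ∏ q ∈ S.erase p, (Polynomial.X - Polynomial.C (jFun q)) ^ m q with hQdef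
  set R : ℂ → ℂ := fun w => Q.eval (jFun (ofComplex w)) with hR
  have hφan : AnalyticAt ℂ φ (z : ℂ) := (analyticAt_jFun z).sub analyticAt_const
  have hRan : AnalyticAt ℂ R (z : ℂ) :=
    (Q.differentiable.analyticAt _).comp (analyticAt_jFun z)
  have hfac : (fun w => P.eval (jFun w)) ∘ ofComplex = φ ^ m p * R := by
    funext w
    simp only [comp_apply, Pi.mul_apply, Pi.pow_apply, hφ, hR, P, hQdef]
    rw [← Finset.mul_prod_erase S _ hp, Polynomial.eval_mul, Polynomial.eval_pow,
      Polynomial.eval_sub, Polynomial.eval_X, Polynomial.eval_C]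
  rw [hfac, meromorphicOrderAt_mul (hφan.pow _).meromorphicAt hRan.meromorphicAt,
    meromorphicOrderAt_pow hφan.meromorphicAt, ← add_assoc, hord]
  refine add_nonneg ?_ hRan.meromorphicOrderAt_nonneg
  have h1 : 1 ≤ meromorphicOrderAt φ (z : ℂ) := by
    have h0 : analyticOrderAt φ (z : ℂ) ≠ 0 := by
      rw [hφan.analyticOrderAt_ne_zero]
      simp [hφ, hj]
    rw [hφan.meromorphicOrderAt_eq]
    cases hc : analyticOrderAt φ (z : ℂ) with
    | top => simp
    | coe k =>
      rw [hc] at h0
      have : k ≠ 0 := fun hk => h0 (by simp [hk])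
      simp
      omega
  refine coe_mul_self_nonneg (m p) ?_ h1
  cases hc : meromorphicOrderAt (f ∘ ofComplex) (p : ℂ) with
  | top => simp
  | coe k =>
    have hk : ordH f p = k := by simp [ordH, hc]
    simp only [m, hk]
    norm_cast
    omega

theorem hasQExp_eval_jFun (P : Polynomial ℂ) :
    HasQExp 1 (fun w => P.eval (jFun w))
      (Polynomial.aeval (ModularCurve.coeffEmb ℂ ModularCurve.jq) P) := by
  induction P using Polynomial.induction_on' with
  | add p q hp hq =>
    rw [map_add]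
    exact (hp.add hq).congr (Eventually.of_forall fun w => by simp)
  | monomial n c =>
    rw [Polynomial.aeval_monomial]
    exact ((hasQExp_const 1 c).mul (hasQExp_jFun.pow n)).congr
      (Eventually.of_forall fun w => by simp)

/-- A level-one modular function has its expansion in `ℂ(jq)`. -/
theorem IsModFun.mem_adjoin_jq (hf : IsModFun 1 f) {y : LaurentSeries ℂ} (hy : HasQExp 1 f y) :
    y ∈ IntermediateField.adjoin ℂ {ModularCurve.coeffEmb ℂ ModularCurve.jq} := by
  set J := ModularCurve.coeffEmb ℂ ModularCurve.jq with hJ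
  obtain ⟨P, hP, han⟩ := hf.exists_mul_analytic
  have hraw : IsMeroRaw (f * fun w => P.eval (jFun w)) := hf.mero.raw.mul fun x hx =>
    ((P.differentiable.analyticAt _).comp (analyticAt_jFun ⟨x, hx⟩)).meromorphicAt
  have hinv : ∀ (γ : SL(2, ℤ)) (z : ℍ),
      nfH (f * fun w => P.eval (jFun w)) (γ • z) = nfH (f * fun w => P.eval (jFun w)) z := by
    intro γ z
    rw [ModularGroup.sl_moeb, ← congrFun (nfH_comp_glSmul hraw (det_pos_SL γ)) z]
    congr 1
    funext w
    show f (γ • w) * P.eval (jFun (γ • w)) = f w * P.eval (jFun w)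
    rw [hf.smul_one, jFun_smul]
  have hpoly := mem_adjoin_jq_of_analytic' han hinv ((hy.mul (hasQExp_eval_jFun P)).nfH one_pos)
  have hsub : ∀ x ∈ Algebra.adjoin ℂ {J}, x ∈ IntermediateField.adjoin ℂ {J} :=
    fun x hx => IntermediateField.algebra_adjoin_le_adjoin ℂ _ hx
  have hne : Polynomial.aeval J P ≠ 0 := by
    intro h0
    obtain ⟨A, hA⟩ : ∃ A, ∀ z : ℍ, A ≤ z.im → P.eval (jFun z) = 0 := by
      have := (hasQExp_eval_jFun P).eventually_eq (g := fun _ => (0 : ℂ)) (by
        rw [← hJ, h0]; exact hasQExp_zero 1)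
      rw [EventuallyEq, Filter.Eventually, atImInfty_mem] at this
      obtain ⟨A, hA⟩ := this
      exact ⟨A, fun z hz => hA z hz⟩
    -- a non-constant value set contradicts finiteness of the roots
    have hroots : ∀ᶠ z : ℍ in atImInfty, jFun z ∈ P.roots.toFinset := by
      rw [Filter.Eventually, atImInfty_mem]
      exact ⟨A, fun z hz => by simp [hP, hA z hz]⟩
    have hlead := hasQExp_jFun.tendsto_leading one_pos (m := -1) fun k hk => by
      rw [ModularCurve.coeffEmb_coeff, ModularCurve.coeff_jq_of_lt hk, map_zero]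
    rw [ModularCurve.coeffEmb_coeff, ModularCurve.coeff_jq_neg_one, map_one, neg_neg] at hlead
    have hzero : Tendsto (fun z : ℍ => jFun z * qPow 1 1 z) atImInfty (𝓝 0) := by
      have hq : Tendsto (fun z : ℍ => qPow 1 1 z) atImInfty (𝓝 0) := by
        simpa [qPow_one_eq_qParam] using tendsto_qParam_atImInfty one_pos
      refine squeeze_zero_norm' (a := fun z : ℍ =>
        (∑ r ∈ P.roots.toFinset, ‖r‖) * ‖qPow 1 1 z‖) ?_ ?_
      · filter_upwards [hroots] with z hz
        rw [norm_mul]
        gcongr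
        exact Finset.single_le_sum (fun r _ => norm_nonneg r) hz
      · simpa using hq.norm.const_mul _
    exact zero_ne_one (tendsto_nhds_unique hzero hlead)
  have hP' : Polynomial.aeval J P ∈ IntermediateField.adjoin ℂ {J} :=
    hsub _ (Polynomial.aeval_mem_adjoin_singleton ℂ J)
  have := div_mem (hsub _ hpoly) hP'
  rwa [mul_div_cancel_right₀ _ hne] at this

end FLTAgent.Modular
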